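import Mathlib.Algebra.Polynomial.Homogenize
import Mathlib.Algebra.Polynomial.FieldDivision
import Mathlib.Topology.Compactification.OnePoint.Basic
import Mathlib.RingTheory.Coprime.Lemmas
import Mathlib.Tactic.LinearCombination

/-!
# Rational functions as maps of the projective line

A pair of coprime polynomials acts on `OnePoint K` through its two homogenizations.
-/

set_option autoImplicit false

noncomputable section

open Polynomial OnePoint

namespace FA.ArithmeticDynamics

variable {K : Type*} [Field K]

/-- The degree of `P / Q`. -/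
def degree (P Q : K[X]) : ℕ := max P.natDegree Q.natDegree

/-- Homogeneous coordinates of a point. -/
def rep (x : OnePoint K) : Fin 2 → K := x.elim ![1, 0] fun z => ![z, 1]

open scoped Classical in
/-- The point with given coordinates. -/
def toPoint (v : Fin 2 → K) : OnePoint K := if v 1 = 0 then ∞ else ↑(v 0 / v 1)

/-- The homogeneous form of degree `d` of a polynomial. -/
def form (R : K[X]) (d : ℕ) (v : Fin 2 → K) : K := MvPolynomial.eval v (R.homogenize d)

/-- The action of `P / Q`. -/
def ratApply (P Q : K[X]) (x : OnePoint K) : OnePoint K :=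
  toPoint ![form P (degree P Q) (rep x), form Q (degree P Q) (rep x)]

theorem rep_ne_zero (x : OnePoint K) : rep x ≠ 0 := by
  induction x using OnePoint.rec <;> simp [rep]

theorem rep_coe (z : K) : rep (z : OnePoint K) = ![z, 1] := rfl

theorem rep_infty : rep (∞ : OnePoint K) = ![1, 0] := rfl

theorem toPoint_rep (x : OnePoint K) : toPoint (rep x) = x := by
  induction x using OnePoint.rec <;> simp [rep, toPoint]

theorem exists_smul_rep {v : Fin 2 → K} (hv : v ≠ 0) :
    ∃ c : K, c ≠ 0 ∧ rep (toPoint v) = c • v := by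
  by_cases h : v 1 = 0
  · have h0 : v 0 ≠ 0 := fun e => hv (funext fun i => by fin_cases i <;> assumption)
    refine ⟨(v 0)⁻¹, inv_ne_zero h0, ?_⟩
    rw [toPoint, if_pos h, rep_infty]
    ext i
    fin_cases i <;> simp [h, h0]
  · refine ⟨(v 1)⁻¹, inv_ne_zero h, ?_⟩
    rw [toPoint, if_neg h, rep_coe]
    ext i
    fin_cases i <;> simp [h, div_eq_inv_mul]

theorem form_eq_sum (R : K[X]) (d : ℕ) (v : Fin 2 → K) :
    form R d v = ∑ p ∈ Finset.antidiagonal d, R.coeff p.1 * (v 0 ^ p.1 * v 1 ^ p.2) := by
  simp only [form, homogenize, MvPolynomial.eval_sum, MvPolynomial.eval_monomial,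
    Finsupp.update_eq_add_single (Finsupp.single_eq_of_ne (show (1 : Fin 2) ≠ 0 by decide))]
  refine Finset.sum_congr rfl fun p _ => ?_
  rw [Finsupp.prod_fintype _ _ fun i => pow_zero _, Fin.prod_univ_two]
  simp

theorem form_smul (R : K[X]) (d : ℕ) (c : K) (v : Fin 2 → K) :
    form R d (c • v) = c ^ d * form R d v := by
  rw [form_eq_sum, form_eq_sum, Finset.mul_sum]
  refine Finset.sum_congr rfl fun p hp => ?_
  rw [← Finset.mem_antidiagonal.1 hp, pow_add]
  simp [mul_pow]
  ring

theorem form_coe (R : K[X]) {d : ℕ} (hR : R.natDegree ≤ d) (z : K) :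
    form R d ![z, 1] = R.eval z := by
  simp [form, eval_homogenize hR ![z, 1] (by simp)]

theorem form_infty (R : K[X]) (d : ℕ) : form R d ![1, 0] = R.coeff d := by
  rw [form_eq_sum, Finset.sum_eq_single (d, 0)]
  · simp
  · rintro ⟨i, j⟩ hp hne
    have : j ≠ 0 := fun e => hne (by simp [← Finset.mem_antidiagonal.1 hp, e])
    simp [this]
  · simp

theorem natDegree_left_le (P Q : K[X]) : P.natDegree ≤ degree P Q := le_max_left _ _

theorem natDegree_right_le (P Q : K[X]) : Q.natDegree ≤ degree P Q := le_max_right _ _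

theorem coeff_degree_ne_zero {P Q : K[X]} (hc : IsCoprime P Q) :
    P.coeff (degree P Q) ≠ 0 ∨ Q.coeff (degree P Q) ≠ 0 := by
  by_contra h
  push Not at h
  rcases max_choice P.natDegree Q.natDegree with e | e
  · have h0 : P = 0 := leadingCoeff_eq_zero.1 (by rw [leadingCoeff, ← e]; exact h.1)
    subst h0
    obtain ⟨c, hc', rfl⟩ := Polynomial.isUnit_iff.1 (isCoprime_zero_left.1 hc)
    exact hc'.ne_zero (by simpa [degree] using h.2)
  · have h0 : Q = 0 := leadingCoeff_eq_zero.1 (by rw [leadingCoeff, ← e]; exact h.2)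
    subst h0
    obtain ⟨c, hc', rfl⟩ := Polynomial.isUnit_iff.1 (isCoprime_zero_right.1 hc)
    exact hc'.ne_zero (by simpa [degree] using h.1)

theorem forms_ne_zero {P Q : K[X]} (hc : IsCoprime P Q) {v : Fin 2 → K} (hv : v ≠ 0) :
    (![form P (degree P Q) v, form Q (degree P Q) v] : Fin 2 → K) ≠ 0 := by
  obtain ⟨c, hc0, he⟩ := exists_smul_rep hv
  intro h
  have hP : form P (degree P Q) (rep (toPoint v)) = 0 := by
    rw [he, form_smul]; simpa [hc0] using congrFun h 0
  have hQ : form Q (degree P Q) (rep (toPoint v)) = 0 := by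
    rw [he, form_smul]; simpa [hc0] using congrFun h 1
  generalize toPoint v = x at hP hQ
  induction x using OnePoint.rec with
  | infty =>
    rw [rep_infty, form_infty] at hP hQ
    exact (coeff_degree_ne_zero hc).elim (fun h => h hP) fun h => h hQ
  | coe z =>
    rw [rep_coe, form_coe _ (natDegree_left_le P Q)] at hP
    rw [rep_coe, form_coe _ (natDegree_right_le P Q)] at hQ
    obtain ⟨a, b, hab⟩ := hc
    simpa [hP, hQ] using congrArg (Polynomial.eval z) hab

theorem toPoint_smul {c : K} (hc : c ≠ 0) (v : Fin 2 → K) : toPoint (c • v) = toPoint v := by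
  by_cases h : v 1 = 0 <;> simp [toPoint, h, hc, mul_div_mul_left]

theorem ratApply_toPoint (P Q : K[X]) {v : Fin 2 → K} (hv : v ≠ 0) :
    ratApply P Q (toPoint v) = toPoint ![form P (degree P Q) v, form Q (degree P Q) v] := by
  obtain ⟨c, hc, he⟩ := exists_smul_rep hv
  rw [ratApply, he, form_smul, form_smul, ← toPoint_smul (pow_ne_zero (degree P Q) hc)
    ![form P (degree P Q) v, form Q (degree P Q) v]]
  congr 1
  ext i
  fin_cases i <;> simp

open scoped Classical in
theorem ratApply_coe (P Q : K[X]) (z : K) :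
    ratApply P Q z = if Q.eval z = 0 then ∞ else ↑(P.eval z / Q.eval z) := by
  rw [ratApply, rep_coe, form_coe _ (natDegree_left_le P Q), form_coe _ (natDegree_right_le P Q)]
  rfl

open scoped Classical in
theorem ratApply_infty (P Q : K[X]) :
    ratApply P Q ∞ = if Q.coeff (degree P Q) = 0 then ∞
      else ↑(P.coeff (degree P Q) / Q.coeff (degree P Q)) := by
  rw [ratApply, rep_infty, form_infty, form_infty]
  rfl

theorem ratApply_map {L : Type*} [Field L] (σ : K →+* L) (P Q : K[X]) (x : OnePoint K) :
    (ratApply P Q x).map σ = ratApply (P.map σ) (Q.map σ) (x.map σ) := by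
  have hd : degree (P.map σ) (Q.map σ) = degree P Q := by simp [degree]
  induction x using OnePoint.rec with
  | infty =>
    rw [OnePoint.map_infty, ratApply_infty, ratApply_infty, hd]
    by_cases h : Q.coeff (degree P Q) = 0
    · simp [h]
    · simp [h, map_div₀]
  | coe z =>
    rw [OnePoint.map_some, ratApply_coe, ratApply_coe, eval_map_apply, eval_map_apply]
    by_cases h : Q.eval z = 0
    · simp [h]
    · simp [h, map_div₀]

/-- Every polynomial of degree at most twice the degree is a small combination of `P` and `Q`. -/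
theorem exists_combination {P Q : K[X]} (hc : IsCoprime P Q) {R : K[X]}
    (hR : R.natDegree ≤ 2 * degree P Q) :
    ∃ a b : K[X], a.natDegree ≤ degree P Q ∧ b.natDegree ≤ degree P Q ∧ a * P + b * Q = R := by
  suffices H : ∀ P Q : K[X], IsCoprime P Q → Q ≠ 0 → P.natDegree ≤ Q.natDegree →
      R.natDegree ≤ 2 * Q.natDegree → ∃ a b : K[X], a.natDegree ≤ Q.natDegree ∧
        b.natDegree ≤ Q.natDegree ∧ a * P + b * Q = R by
    rcases le_total P.natDegree Q.natDegree with h | h
    · by_cases hQ : Q = 0
      · subst hQ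
        obtain ⟨c, hc', rfl⟩ := Polynomial.isUnit_iff.1 (isCoprime_zero_right.1 hc)
        obtain ⟨e, he⟩ := hc'.exists_left_inv
        refine ⟨C e * R, 0, ?_, by simp, ?_⟩
        · exact natDegree_C_mul_le _ _ |>.trans (by simpa [degree] using hR)
        · rw [zero_mul, add_zero, mul_right_comm, ← C_mul, he, C_1, one_mul]
      · simpa [degree, h] using H P Q hc hQ h (by simpa [degree, h] using hR)
    · by_cases hP : P = 0
      · subst hP
        obtain ⟨c, hc', rfl⟩ := Polynomial.isUnit_iff.1 (isCoprime_zero_left.1 hc)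
        obtain ⟨e, he⟩ := hc'.exists_left_inv
        refine ⟨0, C e * R, by simp, ?_, ?_⟩
        · exact natDegree_C_mul_le _ _ |>.trans (by simpa [degree] using hR)
        · rw [zero_mul, zero_add, mul_right_comm, ← C_mul, he, C_1, one_mul]
      · obtain ⟨a, b, ha, hb, e⟩ := H Q P hc.symm hP h (by simpa [degree, h] using hR)
        exact ⟨b, a, by simpa [degree, h] using hb, by simpa [degree, h] using ha,
          by rw [add_comm, e]⟩
  intro P Q hc hQ hPQ hR
  obtain ⟨u, v, huv⟩ := hc
  set a := (R * u) % Q
  set b := (R * u) / Q * P + R * v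
  have he : a * P + b * Q = R := by
    linear_combination R * huv + P * (EuclideanDomain.mod_add_div (R * u) Q)
  have ha : a.natDegree ≤ Q.natDegree := natDegree_le_natDegree (degree_mod_lt _ hQ).le
  refine ⟨a, b, ha, ?_, he⟩
  by_cases hb : b = 0
  · simp [hb]
  have h1 : (b * Q).natDegree ≤ 2 * Q.natDegree := by
    rw [show b * Q = R - a * P by linear_combination he]
    refine (natDegree_sub_le _ _).trans (max_le hR ?_)
    refine natDegree_mul_le.trans ?_
    omega
  rw [natDegree_mul hb hQ] at h1
  omega

end FA.ArithmeticDynamics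

end
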