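import Fermat.Agent.ArithmeticDynamics.Cycles
import Fermat.Agent.Subspace.UnitEquationNumberField
import Mathlib.Dynamics.PeriodicPts.Defs
import Mathlib.Data.Nat.Factorization.Basic

/-!
# Cycles have bounded length

Normalised differences on a cycle of prime power length give solutions of `u + v + w = 1` in
`S`-units, so that length is bounded; then so is every length.
-/

set_option autoImplicit false

noncomputable section

open Polynomial OnePoint NumberField IsDedekindDomain Finset

namespace FA.ArithmeticDynamics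

variable {K : Type*} [Field K] [NumberField K]

/-- **Counting**: for fixed `c` boundedly many distinct `u` with units `u + v + c = 1`. -/
theorem exists_card_bound (S : Finset (HeightOneSpectrum (𝓞 K))) :
    ∃ N : ℕ, ∀ (J : Finset ℕ) (u v : ℕ → K) (c : K), Set.InjOn u J →
      Gyory.IsSUnit S c → c ≠ 1 →
      (∀ j ∈ J, Gyory.IsSUnit S (u j) ∧ Gyory.IsSUnit S (v j) ∧ u j + v j + c = 1) →
      J.card ≤ N := by
  classical
  have hfin := Subspace.finite_sUnit_equation (K := K) S (fun _ : Fin 3 => (1 : K))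
    fun _ => one_ne_zero
  set E : Finset K := hfin.toFinset.image fun t => (t 0 : K)
  refine ⟨E.card + 2, fun J u v c hinj hc hc1 h => ?_⟩
  have hsub : ∀ j ∈ J, u j ∈ E ∪ {-c, 1} := by
    intro j hj
    obtain ⟨hu, hv, hsum⟩ := h j hj
    by_cases hdeg : u j + c = 0
    · simp [eq_neg_of_add_eq_zero_left hdeg]
    by_cases hdeg' : v j + c = 0
    · simp [show u j = 1 by linear_combination hsum - hdeg']
    have hdeg'' : u j + v j ≠ 0 := fun e => hc1 (by linear_combination hsum - e)
    refine mem_union_left _ (mem_image.2 ⟨![Units.mk0 _ hu.ne_zero, Units.mk0 _ hv.ne_zero,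
      Units.mk0 _ hc.ne_zero], hfin.mem_toFinset.2 ⟨fun i => ?_, ?_, fun T hT => ?_⟩, rfl⟩)
    · fin_cases i <;>
        exact Subspace.mem_unit_iff.2 fun v' hv' => by
          first | exact hu.2 v' hv' | exact hv.2 v' hv' | exact hc.2 v' hv'
    · simpa [Fin.sum_univ_three] using hsum
    · have hT' : ∀ T : Finset (Fin 3), T.Nonempty →
          T = {0} ∨ T = {1} ∨ T = {2} ∨ T = {0, 1} ∨ T = {0, 2} ∨ T = {1, 2} ∨ T = univ := by
        decide
      rcases hT' T hT with rfl | rfl | rfl | rfl | rfl | rfl | rfl <;>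
        simp [Fin.sum_univ_three, hu.ne_zero, hv.ne_zero, hc.ne_zero, hdeg, hdeg', hdeg'', hsum]
  calc J.card = (J.image u).card := (card_image_of_injOn hinj).symm
    _ ≤ (E ∪ {-c, 1}).card := card_le_card (image_subset_iff.2 hsub)
    _ ≤ E.card + 2 := (card_union_le _ _).trans (Nat.add_le_add_left card_le_two _)

/-- A cycle of exact length `n` contracted outside of `S`. -/
def IsSCycle (S : Finset (HeightOneSpectrum (𝓞 K))) (n : ℕ) (x : ℕ → OnePoint K) : Prop :=
  Set.InjOn x (Set.Iio n) ∧ (∀ i, x (i + n) = x i) ∧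
    ∀ v ∉ S, IsCycle (HeightOneSpectrum.adicAbv K v) n x

/-- The difference of two points in the coordinate with pole at the point `o`. -/
def poleDiff (o a b : OnePoint K) : K :=
  wedge (rep a) (rep b) / (wedge (rep a) (rep o) * wedge (rep b) (rep o))

theorem poleDiff_add {o a b c : OnePoint K} (ha : a ≠ o) (hb : b ≠ o) (hc : c ≠ o) :
    poleDiff o a b + poleDiff o b c = poleDiff o a c := by
  have h : ∀ {p : OnePoint K}, p ≠ o → wedge (rep p) (rep o) ≠ 0 := fun hp e =>
    hp (wedge_rep_eq_zero_iff.1 e)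
  have := h ha
  have := h hb
  have := h hc
  simp only [poleDiff]
  field_simp
  simp only [wedge]
  ring

theorem abv_poleDiff (v : HeightOneSpectrum (𝓞 K)) (o a b : OnePoint K) :
    HeightOneSpectrum.adicAbv K v (poleDiff o a b) =
      chordDist (HeightOneSpectrum.adicAbv K v) a b /
        (chordDist (HeightOneSpectrum.adicAbv K v) a o *
          chordDist (HeightOneSpectrum.adicAbv K v) b o) /
        supNorm (HeightOneSpectrum.adicAbv K v) (rep o) ^ 2 := by
  set w := HeightOneSpectrum.adicAbv K v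
  rw [poleDiff, map_div₀, map_mul, abv_wedge_rep, abv_wedge_rep, abv_wedge_rep, div_div,
    show chordDist w a o * supNorm w (rep a) * supNorm w (rep o) *
      (chordDist w b o * supNorm w (rep b) * supNorm w (rep o)) =
      chordDist w a o * chordDist w b o * supNorm w (rep o) ^ 2 *
        (supNorm w (rep a) * supNorm w (rep b)) by ring, mul_assoc]
  exact mul_div_mul_right _ _ (mul_ne_zero (supNorm_rep_ne_zero w a) (supNorm_rep_ne_zero w b))

/-- The index difference as a natural number. -/
def indexGcd (q i j : ℕ) : ℕ := Nat.gcd (max i j - min i j) q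

theorem IsSCycle.chordDist_eq {S : Finset (HeightOneSpectrum (𝓞 K))} {q : ℕ}
    {x : ℕ → OnePoint K} (h : IsSCycle S q x) (hq : 0 < q) {v : HeightOneSpectrum (𝓞 K)}
    (hv : v ∉ S) (i j : ℕ) :
    chordDist (HeightOneSpectrum.adicAbv K v) (x i) (x j) =
      chordDist (HeightOneSpectrum.adicAbv K v) (x 0) (x (indexGcd q i j)) := by
  have hw := NumberField.HeightOneSpectrum.isNonarchimedean_adicAbv K v
  rcases le_total i j with e | e
  · rw [indexGcd, max_eq_right e, min_eq_left e]
    exact (h.2.2 v hv).chordDist_eq hq hw e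
  · rw [indexGcd, max_eq_left e, min_eq_right e, chordDist_comm]
    exact (h.2.2 v hv).chordDist_eq hq hw e

/-- **The count on a cycle.** -/
theorem exists_pattern_bound (S : Finset (HeightOneSpectrum (𝓞 K))) :
    ∃ N : ℕ, ∀ (q : ℕ) (x : ℕ → OnePoint K), IsSCycle S q x →
      ∀ (J : Finset ℕ) (a a' b : ℕ) (g h e : ℕ),
        (∀ j ∈ J, j < q ∧ 0 < j ∧ indexGcd q a j = g ∧ indexGcd q a' j = g ∧ indexGcd q j 0 = h) →
        0 < a → a < q → 0 < a' → a' < q → a ≠ a' → 0 < b → b < q →
        indexGcd q a b = g → indexGcd q a' b = g → indexGcd q b 0 = h →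
        indexGcd q a 0 = e → indexGcd q a' 0 = e → a ≠ b → a' ≠ b → (∀ j ∈ J, j ≠ a ∧ j ≠ a') →
        J.card ≤ N := by
  classical
  obtain ⟨N, hN⟩ := exists_card_bound (K := K) S
  refine ⟨N, fun q x hx J a a' b g h e hJ ha haq ha' ha'q haa hb hbq g1 g2 h1 e1 e2 hab ha'b
    hJa => ?_⟩
  have hq : 0 < q := by omega
  have hne : ∀ {i j}, i < q → j < q → i ≠ j → x i ≠ x j := fun hi hj hij e =>
    hij (hx.1 hi hj e)
  have hD : ∀ {i j}, 0 < i → i < q → 0 < j → j < q → i ≠ j →
      poleDiff (x 0) (x i) (x j) ≠ 0 := by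
    intro i j hi hiq hj hjq hij
    refine div_ne_zero (fun e => hne hiq hjq hij (wedge_rep_eq_zero_iff.1 e))
      (mul_ne_zero (fun e => hne hiq hq hi.ne' (wedge_rep_eq_zero_iff.1 e))
        fun e => hne hjq hq hj.ne' (wedge_rep_eq_zero_iff.1 e))
  have hunit : ∀ {i j i' j'}, 0 < i → i < q → 0 < j → j < q → i ≠ j → 0 < i' → i' < q → 0 < j' →
      j' < q → i' ≠ j' → indexGcd q i j = indexGcd q i' j' → indexGcd q i 0 = indexGcd q i' 0 →
      indexGcd q j 0 = indexGcd q j' 0 →
      Gyory.IsSUnit S (poleDiff (x 0) (x i) (x j) / poleDiff (x 0) (x i') (x j')) := by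
    intro i j i' j' hi hiq hj hjq hij hi' hi'q hj' hj'q hij' E1 E2 E3
    refine ⟨div_ne_zero (hD hi hiq hj hjq hij) (hD hi' hi'q hj' hj'q hij'), fun v hv => ?_⟩
    rw [map_div₀, abv_poleDiff, abv_poleDiff, hx.chordDist_eq hq hv i, hx.chordDist_eq hq hv i',
      hx.chordDist_eq hq hv i 0, hx.chordDist_eq hq hv i' 0, hx.chordDist_eq hq hv j 0,
      hx.chordDist_eq hq hv j' 0, E1, E2, E3, div_self]
    have hne0 : ∀ k, 0 < k → k < q →
        chordDist (HeightOneSpectrum.adicAbv K v) (x 0) (x (indexGcd q k 0)) ≠ 0 :=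
      fun k hk hkq => by
      rw [← hx.chordDist_eq hq hv k 0]
      exact (chordDist_pos (hne hkq hq hk.ne')).ne'
    refine div_ne_zero (div_ne_zero ?_ (mul_ne_zero (hne0 i' hi' hi'q) (hne0 j' hj' hj'q)))
      (pow_ne_zero _ (supNorm_rep_ne_zero _ _))
    rw [← hx.chordDist_eq hq hv i']
    exact (chordDist_pos (hne hi'q hj'q hij')).ne'
  set D := fun i j => poleDiff (x 0) (x i) (x j) with hDdef
  have hadd : ∀ {i j k}, 0 < i → i < q → 0 < j → j < q → 0 < k → k < q →
      D i j + D j k = D i k := fun hi hiq hj hjq hk hkq =>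
    poleDiff_add (hne hiq hq hi.ne') (hne hjq hq hj.ne') (hne hkq hq hk.ne')
  have hanti : ∀ i j, D i j = -D j i := fun i j => by
    simp only [hDdef, poleDiff, wedge]
    rw [← neg_div]
    congr 1 <;> ring
  have hbase := hD ha haq hb hbq hab
  refine hN J (fun j => D a j / D a b) (fun j => D j a' / D a b) (D a' b / D a b) ?_
    (hunit ha' ha'q hb hbq ha'b ha haq hb hbq hab (g2.trans g1.symm) (e2.trans e1.symm) rfl) ?_
    fun j hj => ⟨?_, ?_, ?_⟩
  · intro i hi j hj hij
    obtain ⟨hiq, hi0, -⟩ := hJ i hi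
    obtain ⟨hjq, hj0, -⟩ := hJ j hj
    by_contra hne'
    have h0 : D j i = 0 := by
      have h1 := hadd hj0 hjq ha haq hi0 hiq
      have h2 : D a i = D a j := (div_left_inj' hbase).1 hij
      rw [← h1, h2, hanti j a, neg_add_cancel]
    exact hD hj0 hjq hi0 hiq (Ne.symm hne') h0
  · intro h1
    rw [div_eq_one_iff_eq hbase] at h1
    have := hadd ha haq ha' ha'q hb hbq
    rw [show D a' b = D a b from h1] at this
    exact hD ha haq ha' ha'q haa (add_eq_right.1 this)
  · obtain ⟨hjq, hj0, G1, -, H1⟩ := hJ j hj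
    exact hunit ha haq hj0 hjq (hJa j hj).1.symm ha haq hb hbq hab (G1.trans g1.symm) rfl
      (H1.trans h1.symm)
  · obtain ⟨hjq, hj0, -, G2, H1⟩ := hJ j hj
    have hu := hunit ha' ha'q hj0 hjq (hJa j hj).2.symm ha haq hb hbq hab (G2.trans g1.symm)
      (e2.trans e1.symm) (H1.trans h1.symm)
    rw [show D j a' / D a b = -(D a' j / D a b) by rw [hanti j a', neg_div]]
    exact hu.neg
  · obtain ⟨hjq, hj0, -⟩ := hJ j hj
    rw [← add_div, ← add_div, hadd ha haq hj0 hjq ha' ha'q, hadd ha haq ha' ha'q hb hbq,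
      div_self hbase]

theorem indexGcd_of_not_dvd {p k i j : ℕ} (hp : p.Prime) (h : ¬p ∣ max i j - min i j) :
    indexGcd (p ^ k) i j = 1 :=
  Nat.Coprime.pow_right k ((Nat.Prime.coprime_iff_not_dvd hp).2 h).symm

/-- **Prime power lengths are bounded.** -/
theorem exists_primePow_bound (S : Finset (HeightOneSpectrum (𝓞 K))) :
    ∃ N : ℕ, ∀ p k : ℕ, p.Prime → ∀ x : ℕ → OnePoint K, IsSCycle S (p ^ k) x → p ^ k ≤ N := by
  classical
  obtain ⟨N, hN⟩ := exists_pattern_bound (K := K) S
  refine ⟨max 8 (3 * N), fun p k hp x hx => ?_⟩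
  by_contra hlt
  rw [not_le, max_lt_iff] at hlt
  obtain ⟨k, rfl⟩ : ∃ k', k = k' + 1 := ⟨k - 1, by
    rcases k with _ | k
    · simp at hlt
    · simp⟩
  set q := p ^ (k + 1) with hqdef
  have hq : q = p * p ^ k := by rw [hqdef, pow_succ']
  have hnd : ∀ {m r : ℕ}, 0 < r → r < p → ¬p ∣ p * m + r := fun hr hrp hd =>
    absurd (Nat.le_of_dvd hr ((Nat.dvd_add_right (Dvd.intro _ rfl)).1 hd)) (by omega)
  rcases Nat.lt_or_ge p 5 with h5 | h5
  · obtain rfl | rfl : p = 2 ∨ p = 3 := by
      have := hp.two_le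
      interval_cases p
      · exact Or.inl rfl
      · exact Or.inr rfl
      · exact absurd hp (by norm_num)
    · -- `p = 2`: the odd indices against `2` and `6`
      have hpow : indexGcd q 2 0 = 2 ∧ indexGcd q 6 0 = 2 := by
        have h2 : 2 ∣ q := hqdef ▸ dvd_pow_self 2 (by omega)
        refine ⟨Nat.gcd_eq_left h2, ?_⟩
        show Nat.gcd (2 * 3) q = 2
        rw [Nat.Coprime.gcd_mul_right_cancel 2 ?_, Nat.gcd_eq_left h2]
        exact hqdef ▸ Nat.Coprime.pow_right _ (by norm_num)
      have h := hN q x hx ((range (2 ^ k)).image fun m => 2 * m + 1) 2 6 1 1 1 2 ?_ (by omega)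
        (by omega) (by omega) (by omega) (by omega) (by omega) (by omega)
        (indexGcd_of_not_dvd hp (by omega)) (indexGcd_of_not_dvd hp (by omega))
        (indexGcd_of_not_dvd hp (by omega)) hpow.1 hpow.2 (by omega) (by omega) ?_
      · rw [card_image_of_injective _ (fun a b h => by simpa using h), card_range] at h
        omega
      · intro j hj
        obtain ⟨m, hm, rfl⟩ := mem_image.1 hj
        rw [mem_range] at hm
        exact ⟨by omega, by omega, indexGcd_of_not_dvd hp (by omega),
          indexGcd_of_not_dvd hp (by omega), indexGcd_of_not_dvd hp (by omega)⟩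
      · intro j hj
        obtain ⟨m, -, rfl⟩ := mem_image.1 hj
        omega
    · -- `p = 3`: the indices `2 (mod 3)` against `1` and `4`
      have h := hN q x hx ((range (3 ^ k)).image fun m => 3 * m + 2) 1 4 2 1 1 1 ?_ (by omega)
        (by omega) (by omega) (by omega) (by omega) (by omega) (by omega)
        (indexGcd_of_not_dvd hp (by omega)) (indexGcd_of_not_dvd hp (by omega))
        (indexGcd_of_not_dvd hp (by omega)) (indexGcd_of_not_dvd hp (by omega))
        (indexGcd_of_not_dvd hp (by omega)) (by omega) (by omega) ?_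
      · rw [card_image_of_injective _ (fun a b h => by simpa using h), card_range] at h
        omega
      · intro j hj
        obtain ⟨m, hm, rfl⟩ := mem_image.1 hj
        rw [mem_range] at hm
        exact ⟨by omega, by omega, indexGcd_of_not_dvd hp (by omega),
          indexGcd_of_not_dvd hp (by omega), indexGcd_of_not_dvd hp (by omega)⟩
      · intro j hj
        obtain ⟨m, -, rfl⟩ := mem_image.1 hj
        omega
  · -- `p ≥ 5`: the residues from `3` on against `1` and `2`
    have hle : p ≤ q := hq ▸ Nat.le_mul_of_pos_right p (Nat.pow_pos hp.pos)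
    have small : ∀ {i : ℕ}, 0 < i → i < p → ¬p ∣ i := fun hi hip hd =>
      absurd (Nat.le_of_dvd hi hd) (by omega)
    have hc : ∀ m r : ℕ, 3 ≤ r → r < p → ∀ c ≤ 2,
        indexGcd q c (p * m + r) = 1 ∧ indexGcd q (p * m + r) c = 1 := by
      intro m r hr hrp c hc
      have hdiff : max c (p * m + r) - min c (p * m + r) = p * m + (r - c) := by
        rw [max_eq_right (by omega), min_eq_left (by omega)]; omega
      refine ⟨indexGcd_of_not_dvd hp (hdiff ▸ hnd (by omega) (by omega)),
        indexGcd_of_not_dvd hp ?_⟩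
      rw [max_comm, min_comm, hdiff]
      exact hnd (by omega) (by omega)
    have h := hN q x hx ((range (p ^ k) ×ˢ range (p - 3)).image fun mr => p * mr.1 + (mr.2 + 3))
      1 2 3 1 1 1 ?_ (by omega) (by omega) (by omega) (by omega) (by omega) (by omega) (by omega)
      (indexGcd_of_not_dvd hp (small (by omega) (by omega)))
      (indexGcd_of_not_dvd hp (small (by omega) (by omega)))
      (indexGcd_of_not_dvd hp (small (by omega) (by omega)))
      (indexGcd_of_not_dvd hp (small (by omega) (by omega)))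
      (indexGcd_of_not_dvd hp (small (by omega) (by omega))) (by omega) (by omega) ?_
    · rw [card_image_of_injOn, card_product, card_range, card_range] at h
      · have h1 : p ^ k * p ≤ p ^ k * (3 * (p - 3)) := Nat.mul_le_mul_left _ (by omega)
        nlinarith [h1, h, hq, hlt.2]
      · rintro ⟨m, r⟩ hm ⟨m', r'⟩ hm' e
        simp only [coe_product, Set.mem_prod, coe_range, Set.mem_Iio] at hm hm'
        dsimp only at e
        have h1 : (p * m + (r + 3)) % p = (p * m' + (r' + 3)) % p := by rw [e]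
        rw [Nat.mul_add_mod, Nat.mul_add_mod, Nat.mod_eq_of_lt (by omega),
          Nat.mod_eq_of_lt (by omega)] at h1
        obtain rfl : r = r' := by omega
        refine Prod.ext ?_ rfl
        exact Nat.eq_of_mul_eq_mul_left hp.pos (show p * m = p * m' by omega)
    · intro j hj
      obtain ⟨⟨m, r⟩, hmr, rfl⟩ := mem_image.1 hj
      simp only [mem_product, mem_range] at hmr
      dsimp only
      refine ⟨?_, by omega, (hc m _ (by omega) (by omega) 1 (by omega)).1,
        (hc m _ (by omega) (by omega) 2 le_rfl).1, (hc m _ (by omega) (by omega) 0 (by omega)).2⟩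
      have := Nat.mul_le_mul_left p (Nat.succ_le_of_lt hmr.1)
      rw [Nat.mul_succ] at this
      omega
    · intro j hj
      obtain ⟨mr, -, rfl⟩ := mem_image.1 hj
      constructor <;> omega

theorem IsSCycle.sub {S : Finset (HeightOneSpectrum (𝓞 K))} {m q : ℕ} {x : ℕ → OnePoint K}
    (h : IsSCycle S (m * q) x) (hm : 0 < m) (hq : 0 < q) :
    IsSCycle S q fun i => x (m * i) := by
  refine ⟨fun i hi j hj e => Nat.eq_of_mul_eq_mul_left hm
    (h.1 (Nat.mul_lt_mul_of_pos_left hi hm) (Nat.mul_lt_mul_of_pos_left hj hm) e),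
    fun i => by simp only [mul_add]; exact h.2.1 _, fun v hv => ⟨fun i => by
      simp only [mul_add]; exact h.2.1 _, fun i j => ?_⟩⟩
  simp only [mul_add, mul_one]
  exact ((h.2.2 v hv).chordDist_add (Nat.mul_pos hm hq) _ _ m).le

/-- **Cycles have bounded length.** -/
theorem exists_cycle_bound (S : Finset (HeightOneSpectrum (𝓞 K))) :
    ∃ B : ℕ, ∀ (n : ℕ) (x : ℕ → OnePoint K), IsSCycle S n x → n ≤ B := by
  obtain ⟨N, hN⟩ := exists_primePow_bound (K := K) S
  refine ⟨N.factorial, fun n x hx => ?_⟩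
  rcases Nat.eq_zero_or_pos n with rfl | hn
  · exact Nat.zero_le _
  refine Nat.le_of_dvd N.factorial_pos ((Nat.dvd_iff_prime_pow_dvd_dvd _ _).2 fun p k hp hd => ?_)
  obtain ⟨m, rfl⟩ := hd
  refine Nat.dvd_factorial (Nat.pow_pos hp.pos) (hN p k hp (fun i => x (m * i)) ?_)
  rw [mul_comm] at hx
  exact hx.sub (Nat.pos_of_mul_pos_left hn) (Nat.pow_pos hp.pos)

/-- An orbit of exact period `n` inside a set on which the map contracts. -/
theorem isSCycle_iterate (S : Finset (HeightOneSpectrum (𝓞 K))) (f : OnePoint K → OnePoint K)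
    (x : OnePoint K)
    (hf : ∀ v ∉ S, ∀ i j, chordDist (HeightOneSpectrum.adicAbv K v) (f (f^[i] x)) (f (f^[j] x)) ≤
      chordDist (HeightOneSpectrum.adicAbv K v) (f^[i] x) (f^[j] x)) :
    IsSCycle S (Function.minimalPeriod f x) fun i => f^[i] x :=
  ⟨Function.iterate_injOn_Iio_minimalPeriod, fun i => Function.iterate_add_minimalPeriod_eq,
    fun v hv => ⟨fun i => Function.iterate_add_minimalPeriod_eq, fun i j => by
      simp only [Function.iterate_succ_apply']; exact hf v hv i j⟩⟩

end FA.ArithmeticDynamics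

end
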