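import Fermat.Agent.ArithmeticDynamics.Reduction
import Mathlib.Data.Int.GCD
import Mathlib.RingTheory.Polynomial.Resultant.Basic

/-!
# Chordal distances along cycles

Maps of good reduction and polynomials with integral coefficients contract the chordal distance, so
on a cycle of length `n` the distance of two points depends only on the `gcd` of `n` and their
difference in index. Good reduction follows from a unit resultant.
-/

set_option autoImplicit false

noncomputable section

open Polynomial OnePoint

namespace FA.ArithmeticDynamics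

variable {L : Type*} [Field L]

/-- The chordal distance. -/
def chordDist (w : AbsoluteValue L ℝ) (x y : OnePoint L) : ℝ :=
  w (wedge (rep x) (rep y)) / (supNorm w (rep x) * supNorm w (rep y))

variable {w : AbsoluteValue L ℝ}

theorem chordDist_toPoint {v u : Fin 2 → L} (hv : v ≠ 0) (hu : u ≠ 0) :
    chordDist w (toPoint v) (toPoint u) = w (wedge v u) / (supNorm w v * supNorm w u) := by
  obtain ⟨c, hc, he⟩ := exists_smul_rep hv
  obtain ⟨e, he0, hf⟩ := exists_smul_rep hu
  rw [chordDist, he, hf, wedge_smul, supNorm_smul, supNorm_smul, map_mul, map_mul,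
    mul_mul_mul_comm]
  exact mul_div_mul_left _ _ (mul_ne_zero (w.ne_zero hc) (w.ne_zero he0))

theorem supNorm_rep_ne_zero (w : AbsoluteValue L ℝ) (x : OnePoint L) : supNorm w (rep x) ≠ 0 := by
  induction x using OnePoint.rec with
  | infty => simp [supNorm, rep]
  | coe z => exact (lt_of_lt_of_le (by simp [rep]) (le_max_right _ _)).ne'

theorem chordDist_self (x : OnePoint L) : chordDist w x x = 0 := by
  simp [chordDist, wedge, mul_comm]

theorem chordDist_comm (x y : OnePoint L) : chordDist w x y = chordDist w y x := by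
  rw [chordDist, chordDist, mul_comm (supNorm w (rep x)),
    show wedge (rep x) (rep y) = -wedge (rep y) (rep x) by simp only [wedge]; ring, map_neg_eq_map]

theorem chordDist_pos {x y : OnePoint L} (h : x ≠ y) : 0 < chordDist w x y :=
  (div_nonneg (w.nonneg _) (mul_nonneg (le_max_of_le_left (w.nonneg _))
    (le_max_of_le_left (w.nonneg _)))).lt_of_ne (Ne.symm (div_ne_zero
      (w.ne_zero fun e => h (wedge_rep_eq_zero_iff.1 e))
      (mul_ne_zero (supNorm_rep_ne_zero w x) (supNorm_rep_ne_zero w y))))

theorem abv_wedge_rep (w : AbsoluteValue L ℝ) (x y : OnePoint L) :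
    w (wedge (rep x) (rep y)) = chordDist w x y * supNorm w (rep x) * supNorm w (rep y) := by
  rw [chordDist, mul_assoc, div_mul_cancel₀]
  exact mul_ne_zero (supNorm_rep_ne_zero w x) (supNorm_rep_ne_zero w y)

theorem chordDist_coe {x y : L} (hx : w x ≤ 1) (hy : w y ≤ 1) :
    chordDist w x y = w (x - y) := by
  simp [chordDist, rep, wedge, supNorm, hx, hy]

variable (hw : IsNonarchimedean w)

include hw

theorem chordDist_le_max (x y z : OnePoint L) :
    chordDist w x z ≤ max (chordDist w x y) (chordDist w y z) := by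
  obtain ⟨u, hu, hu1, rfl⟩ := exists_normalised w x
  obtain ⟨v, hv, hv1, rfl⟩ := exists_normalised w y
  obtain ⟨t, ht, ht1, rfl⟩ := exists_normalised w z
  rw [chordDist_toPoint hu ht, chordDist_toPoint hu hv, chordDist_toPoint hv ht, hu1, hv1, ht1]
  simp only [mul_one, div_one]
  obtain ⟨i, hi⟩ : ∃ i, w (v i) = 1 := by
    rcases max_choice (w (v 0)) (w (v 1)) with e | e <;> exact ⟨_, e.symm.trans hv1⟩
  have e : wedge u t * v i = wedge u v * t i + wedge v t * u i := by
    fin_cases i <;> simp [wedge] <;> ring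
  calc w (wedge u t) = w (wedge u t * v i) := by rw [map_mul, hi, mul_one]
    _ ≤ _ := by
      rw [e]
      refine (hw _ _).trans (max_le_max ?_ ?_) <;> rw [map_mul]
      · exact mul_le_of_le_one_right (w.nonneg _) (abv_le_one_of_supNorm ht1 i)
      · exact mul_le_of_le_one_right (w.nonneg _) (abv_le_one_of_supNorm hu1 i)

/-- **Good reduction contracts.** -/
theorem Good.chordDist_le {P Q : L[X]} (hg : Good w P Q) (x y : OnePoint L) :
    chordDist w (ratApply P Q x) (ratApply P Q y) ≤ chordDist w x y := by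
  obtain ⟨v, hv, hv1, rfl⟩ := exists_normalised w x
  obtain ⟨u, hu, hu1, rfl⟩ := exists_normalised w y
  rw [ratApply_toPoint P Q hv, ratApply_toPoint P Q hu,
    chordDist_toPoint (ne_zero_of_supNorm (hg.supNorm_forms hw hv1))
      (ne_zero_of_supNorm (hg.supNorm_forms hw hu1)),
    chordDist_toPoint hv hu, hg.supNorm_forms hw hv1, hg.supNorm_forms hw hu1, hv1, hu1]
  simpa using hg.abv_wedge_forms_le hw hv1 hu1

theorem abv_eval_le {f : L[X]} (hf : ∀ i, w (f.coeff i) ≤ 1) {x : L} (hx : w x ≤ 1) :
    w (f.eval x) ≤ 1 := by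
  rw [← form_coe f le_rfl]
  exact abv_form_le hw hf _ fun i => by fin_cases i <;> simp [hx]

theorem abv_eval_sub_le {f : L[X]} (hf : ∀ i, w (f.coeff i) ≤ 1) {x y : L} (hx : w x ≤ 1)
    (hy : w y ≤ 1) : w (f.eval x - f.eval y) ≤ w (x - y) := by
  rw [← form_coe f le_rfl, ← form_coe f le_rfl]
  exact abv_form_sub_le hw hf _ (fun i => by fin_cases i <;> simp [hx])
    (fun i => by fin_cases i <;> simp [hy]) fun i => by fin_cases i <;> simp

/-- **A unit resultant gives good reduction.** -/
theorem good_of_resultant {P Q : L[X]} (hd : 1 ≤ degree P Q)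
    (hP : ∀ i, w (P.coeff i) ≤ 1) (hQ : ∀ i, w (Q.coeff i) ≤ 1)
    (hR : w (P.resultant Q (degree P Q) (degree P Q)) = 1) : Good w P Q := by
  set d := degree P Q with hdd
  let O : Subring L :=
    { carrier := {x | w x ≤ 1}
      mul_mem' := fun {a b} (ha : w a ≤ 1) (hb : w b ≤ 1) => show w (a * b) ≤ 1 by
        rw [map_mul]; exact mul_le_one₀ ha (w.nonneg _) hb
      one_mem' := show w 1 ≤ 1 by simp
      add_mem' := fun {a b} (ha : w a ≤ 1) (hb : w b ≤ 1) => (hw a b).trans (max_le ha hb)
      zero_mem' := show w 0 ≤ 1 by simp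
      neg_mem' := fun {a} (ha : w a ≤ 1) => show w (-a) ≤ 1 by rwa [map_neg_eq_map] }
  obtain ⟨P₀, hP₀⟩ := (mem_lifts P).1 ((lifts_iff_coeff_lifts (f := O.subtype) P).2
    fun i => ⟨⟨_, hP i⟩, rfl⟩)
  obtain ⟨Q₀, hQ₀⟩ := (mem_lifts Q).1 ((lifts_iff_coeff_lifts (f := O.subtype) Q).2
    fun i => ⟨⟨_, hQ i⟩, rfl⟩)
  have hinj : Function.Injective O.subtype := Subtype.val_injective
  have hP₀d : P₀.natDegree ≤ d := by
    rw [← natDegree_map_eq_of_injective hinj P₀, hP₀]; exact natDegree_left_le P Q
  have hQ₀d : Q₀.natDegree ≤ d := by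
    rw [← natDegree_map_eq_of_injective hinj Q₀, hQ₀]; exact natDegree_right_le P Q
  refine ⟨fun i => ⟨hP i, hQ i⟩, fun z hz => ?_⟩
  have hz1 := abv_le_one_of_supNorm hz
  have key : ∀ k < d + d, w (P.resultant Q d d) * w (z 0) ^ k * w (z 1) ^ (d + d - 1 - k) ≤
      max (w (form P d z)) (w (form Q d z)) := by
    intro k hk
    have hX : (X ^ k : O[X]) ∈ degreeLT O (d + d) :=
      mem_degreeLT.2 ((degree_X_pow_le k).trans_lt (by exact_mod_cast hk))
    set pq := adjSylvester (m := d) (n := d) P₀ Q₀ ⟨X ^ k, hX⟩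
    have h := congrArg (fun r : degreeLT O (d + d) => Polynomial.map O.subtype (r : O[X]))
      (LinearMap.congr_fun (sylveserMap_comp_adjSylvester P₀ Q₀ hP₀d hQ₀d) ⟨X ^ k, hX⟩)
    simp only [LinearMap.comp_apply, sylvesterMap_apply_coe, LinearMap.smul_apply,
      LinearMap.id_apply, SetLike.val_smul, Polynomial.smul_eq_C_mul, Polynomial.map_add,
      Polynomial.map_mul, map_C, Polynomial.map_pow, map_X, hP₀, hQ₀] at h
    rw [← resultant_map_map, hP₀, hQ₀] at h
    have hdeg : ∀ r : degreeLT O d, ((r : O[X]).map O.subtype).natDegree ≤ d - 1 := fun r => by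
      refine natDegree_map_le.trans ?_
      by_cases hr : (r : O[X]) = 0
      · simp [hr]
      · have := (natDegree_lt_iff_degree_lt hr).2 (mem_degreeLT.1 r.2)
        omega
    have h2 := congrArg (fun R => (R.homogenize (d + (d - 1))).eval z) h
    simp only [homogenize_add, homogenize_C_mul, homogenize_X_pow (show k ≤ d + (d - 1) by omega),
      map_add, map_mul, map_pow, MvPolynomial.eval_C, MvPolynomial.eval_X] at h2
    rw [← map_pow, ← map_pow, ← map_mul, ← map_mul, show d + d - 1 - k = d + (d - 1) - k by omega,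
      mul_assoc, ← h2]
    have hint : ∀ r : degreeLT O d, ∀ i, w (((r : O[X]).map O.subtype).coeff i) ≤ 1 := fun r i => by
      rw [coeff_map]
      exact ((r : O[X]).coeff i).2
    refine (hw _ _).trans (max_le_max ?_ ?_)
    · rw [homogenize_mul _ _ (show P.natDegree ≤ d from natDegree_left_le P Q) (hdeg _), map_mul,
        map_mul]
      exact mul_le_of_le_one_right (w.nonneg _) (abv_form_le hw (hint _) _ hz1)
    · rw [homogenize_mul _ _ (show Q.natDegree ≤ d from natDegree_right_le P Q) (hdeg _), map_mul,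
        map_mul]
      exact mul_le_of_le_one_right (w.nonneg _) (abv_form_le hw (hint _) _ hz1)
  rcases max_choice (w (z 0)) (w (z 1)) with e | e
  · simpa [hR, show w (z 0) = 1 from e.symm.trans hz] using key (d + d - 1) (by omega)
  · simpa [hR, show w (z 1) = 1 from e.symm.trans hz] using key 0 (by omega)

omit hw

/-- A sequence of period `n` without repetition within one period, contracted at `w`. -/
structure IsCycle (w : AbsoluteValue L ℝ) (n : ℕ) (x : ℕ → OnePoint L) : Prop where
  periodic : ∀ i, x (i + n) = x i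
  contract : ∀ i j, chordDist w (x (i + 1)) (x (j + 1)) ≤ chordDist w (x i) (x j)

variable {n : ℕ} {x : ℕ → OnePoint L}

theorem IsCycle.periodic_mul (h : IsCycle w n x) (i k : ℕ) : x (i + n * k) = x i := by
  induction k with
  | zero => simp
  | succ k ih => rw [Nat.mul_succ, ← add_assoc, h.periodic, ih]

theorem IsCycle.chordDist_add (h : IsCycle w n x) (hn : 0 < n) (i j t : ℕ) :
    chordDist w (x (i + t)) (x (j + t)) = chordDist w (x i) (x j) := by
  have key : ∀ i j t, chordDist w (x (i + t)) (x (j + t)) ≤ chordDist w (x i) (x j) := by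
    intro i j t
    induction t with
    | zero => rfl
    | succ t ih => exact (h.contract (i + t) (j + t)).trans ih
  refine le_antisymm (key i j t) ?_
  have := key (i + t) (j + t) (n * t - t)
  have ht : t ≤ n * t := Nat.le_mul_of_pos_left t hn
  rwa [show i + t + (n * t - t) = i + n * t by omega, show j + t + (n * t - t) = j + n * t by omega,
    h.periodic_mul, h.periodic_mul] at this

theorem IsCycle.chordDist_le_mul (h : IsCycle w n x) (hn : 0 < n) (hw : IsNonarchimedean w)
    (i k : ℕ) : chordDist w (x 0) (x (k * i)) ≤ chordDist w (x 0) (x i) := by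
  induction k with
  | zero =>
    rw [zero_mul, chordDist_self]
    exact div_nonneg (w.nonneg _)
      (mul_nonneg (le_max_of_le_left (w.nonneg _)) (le_max_of_le_left (w.nonneg _)))
  | succ k ih =>
    refine (chordDist_le_max hw _ (x i) _).trans (max_le le_rfl ?_)
    have := h.chordDist_add hn 0 (k * i) i
    rw [zero_add] at this
    rw [Nat.succ_mul, this]
    exact ih

/-- **The distance depends only on the `gcd`.** -/
theorem IsCycle.chordDist_eq_gcd (h : IsCycle w n x) (hn : 0 < n) (hw : IsNonarchimedean w)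
    (i : ℕ) : chordDist w (x 0) (x i) = chordDist w (x 0) (x (Nat.gcd i n)) := by
  obtain ⟨c, hc⟩ := Nat.gcd_dvd_left i n
  refine le_antisymm ?_ ?_
  · conv_lhs => rw [hc, mul_comm]
    exact h.chordDist_le_mul hn hw _ c
  · rcases eq_or_lt_of_le (Nat.gcd_le_right i hn) with e | e
    · rw [e, show x n = x 0 by simpa using h.periodic 0, chordDist_self]
      exact div_nonneg (w.nonneg _)
        (mul_nonneg (le_max_of_le_left (w.nonneg _)) (le_max_of_le_left (w.nonneg _)))
    · obtain ⟨m, -, hm⟩ := Nat.exists_mul_mod_eq_gcd e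
      have e2 : x (m * i) = x (Nat.gcd i n) := by
        conv_lhs => rw [← Nat.mod_add_div (m * i) n, h.periodic_mul, mul_comm m, hm]
      rw [← e2]
      exact h.chordDist_le_mul hn hw i m

theorem IsCycle.chordDist_eq (h : IsCycle w n x) (hn : 0 < n) (hw : IsNonarchimedean w)
    {i j : ℕ} (hij : i ≤ j) :
    chordDist w (x i) (x j) = chordDist w (x 0) (x (Nat.gcd (j - i) n)) := by
  rw [← h.chordDist_eq_gcd hn hw]
  have := h.chordDist_add hn 0 (j - i) i
  rwa [zero_add, Nat.sub_add_cancel hij] at this

end FA.ArithmeticDynamics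

end
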