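import Fermat.Agent.ArithmeticDynamics.Basic
import Mathlib.NumberTheory.Height.MvPolynomial
import Mathlib.NumberTheory.Height.NumberField
import Mathlib.NumberTheory.Height.Projectivization
import Mathlib.Analysis.SpecificLimits.Basic
import Mathlib.Tactic.Linarith

/-!
# Canonical heights and Northcott's theorem

A rational function of degree `d` multiplies the height by `d` up to a bounded error. Tate's limit
gives the canonical height, which vanishes exactly at the preperiodic points, so these have bounded
height and form a finite set.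
-/

set_option autoImplicit false

noncomputable section

open Polynomial OnePoint Height Filter Topology

namespace FA.ArithmeticDynamics

variable {K : Type*} [Field K] [AdmissibleAbsValues K]

/-- The height of a point of the projective line. -/
def pointHeight (x : OnePoint K) : ℝ := logHeight (rep x)

theorem pointHeight_coe (z : K) : pointHeight (z : OnePoint K) = logHeight₁ z := by
  rw [pointHeight, rep_coe, logHeight₁_eq_logHeight]

theorem finite_pointHeight_le [Northcott (logHeight₁ (K := K))] (B : ℝ) :
    {x : OnePoint K | pointHeight x ≤ B}.Finite := by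
  refine (((Northcott.finite_le (h := logHeight₁ (K := K)) B).image
    fun z : K => (z : OnePoint K)).union (Set.finite_singleton ∞)).subset fun x hx => ?_
  induction x using OnePoint.rec with
  | infty => exact Or.inr rfl
  | coe z => exact Or.inl ⟨z, by simpa [pointHeight_coe] using hx, rfl⟩

variable {P Q : K[X]}

/-- **The height grows by the degree.** -/
theorem exists_height_bound (hc : IsCoprime P Q) :
    ∃ C, ∀ x : OnePoint K,
      |pointHeight (ratApply P Q x) - degree P Q * pointHeight x| ≤ C := by
  set d := degree P Q with hd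
  obtain ⟨a₁, b₁, ha₁, hb₁, h₁⟩ := exists_combination hc (R := 1) (by simp)
  obtain ⟨a₀, b₀, ha₀, hb₀, h₀⟩ := exists_combination hc (R := X ^ (2 * d)) (by simp [hd])
  let p : Fin 2 → MvPolynomial (Fin 2) K := ![P.homogenize d, Q.homogenize d]
  let q : Fin 2 × Fin 2 → MvPolynomial (Fin 2) K :=
    fun k => (![![a₀, b₀], ![a₁, b₁]] k.1 k.2).homogenize d
  have hp : ∀ i, (p i).IsHomogeneous d := fun i => by fin_cases i <;> simp [p]
  have key : ∀ k x, ∑ j, (q (k, j)).eval x * (p j).eval x = x k ^ (d + d) := by
    intro k x
    have e : ∀ a b R : K[X], a.natDegree ≤ d → b.natDegree ≤ d → a * P + b * Q = R →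
        (a.homogenize d).eval x * (P.homogenize d).eval x +
          (b.homogenize d).eval x * (Q.homogenize d).eval x =
            (R.homogenize (d + d)).eval x := fun a b R ha hb h => by
      rw [← h, homogenize_add, homogenize_mul _ _ ha (natDegree_left_le P Q),
        homogenize_mul _ _ hb (natDegree_right_le P Q)]
      simp [hd]
    fin_cases k
    · simpa [Fin.sum_univ_two, p, q, two_mul] using e a₀ b₀ _ ha₀ hb₀ h₀
    · simpa [Fin.sum_univ_two, p, q] using e a₁ b₁ _ ha₁ hb₁ h₁
  obtain ⟨C₁, hC₁⟩ := logHeight_eval_le' (p := p) hp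
  obtain ⟨C₂, hC₂⟩ := logHeight_eval_ge' (M := d) (N := d) (q := q)
    fun k => isHomogeneous_homogenize _
  refine ⟨|C₁| + |C₂|, fun x => ?_⟩
  have e : (fun j => (p j).eval (rep x)) = ![form P d (rep x), form Q d (rep x)] := by
    ext j; fin_cases j <;> rfl
  have h1 := hC₁ (rep x)
  have h2 := hC₂ p (x := rep x) fun k => key k _
  rw [e] at h1 h2
  obtain ⟨c, hc0, he⟩ := exists_smul_rep (forms_ne_zero hc (rep_ne_zero x))
  rw [pointHeight, ratApply, he, logHeight_smul_eq_logHeight _ hc0, ← hd, pointHeight, abs_le]
  constructor <;> linarith [le_abs_self C₁, le_abs_self C₂, neg_abs_le C₁, neg_abs_le C₂]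

/-- The canonical height, Tate's limit. -/
def canonicalHeight (P Q : K[X]) (x : OnePoint K) : ℝ :=
  limUnder atTop fun n : ℕ => pointHeight ((ratApply P Q)^[n] x) / (degree P Q : ℝ) ^ n

theorem exists_tendsto_canonicalHeight (hc : IsCoprime P Q) (hd : 2 ≤ degree P Q) :
    ∃ C, ∀ x : OnePoint K,
      Tendsto (fun n : ℕ => pointHeight ((ratApply P Q)^[n] x) / (degree P Q : ℝ) ^ n) atTop
        (𝓝 (canonicalHeight P Q x)) ∧ |canonicalHeight P Q x - pointHeight x| ≤ C := by
  obtain ⟨C, hC⟩ := exists_height_bound hc
  set d : ℝ := (degree P Q : ℝ)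
  have hd2 : (2 : ℝ) ≤ d := Nat.ofNat_le_cast.2 hd
  refine ⟨C / d / (1 - 1 / d), fun x => ?_⟩
  set u : ℕ → ℝ := fun n => pointHeight ((ratApply P Q)^[n] x) / d ^ n
  have hu : ∀ n, dist (u n) (u (n + 1)) ≤ C / d * (1 / d) ^ n := by
    intro n
    have h := hC ((ratApply P Q)^[n] x)
    rw [← Function.iterate_succ_apply' (ratApply P Q)] at h
    have e : u (n + 1) - u n =
        (pointHeight ((ratApply P Q)^[n + 1] x) - d * pointHeight ((ratApply P Q)^[n] x)) /
          d ^ (n + 1) := by
      simp only [u]
      field_simp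
      ring
    have e' : C / d * (1 / d) ^ n = C / d ^ (n + 1) := by
      rw [div_pow, one_pow, pow_succ]
      field_simp
    rw [Real.dist_eq, abs_sub_comm, e, e', abs_div, abs_of_pos (show 0 < d ^ (n + 1) by positivity)]
    gcongr
  have hr : 1 / d < 1 := by rw [div_lt_one (by linarith)]; linarith
  have ht := (cauchySeq_of_le_geometric _ _ hr hu).tendsto_limUnder
  refine ⟨ht, ?_⟩
  have := dist_le_of_le_geometric_of_tendsto₀ _ _ hr hu ht
  rw [Real.dist_eq, abs_sub_comm] at this
  simpa [u, canonicalHeight, d] using this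

theorem canonicalHeight_ratApply (hc : IsCoprime P Q) (hd : 2 ≤ degree P Q) (x : OnePoint K) :
    canonicalHeight P Q (ratApply P Q x) = degree P Q * canonicalHeight P Q x := by
  obtain ⟨C, hC⟩ := exists_tendsto_canonicalHeight hc hd
  refine tendsto_nhds_unique (hC (ratApply P Q x)).1 ?_
  refine (((hC x).1.comp (tendsto_add_atTop_nat 1)).const_mul _).congr fun n => ?_
  have : (degree P Q : ℝ) ≠ 0 := Nat.cast_ne_zero.2 (by omega)
  rw [Function.comp_apply, Function.iterate_succ_apply]
  field_simp
  ring

/-- **The canonical height vanishes exactly at the preperiodic points.** -/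
theorem canonicalHeight_eq_zero_iff [Northcott (logHeight₁ (K := K))] (hc : IsCoprime P Q)
    (hd : 2 ≤ degree P Q) (x : OnePoint K) :
    canonicalHeight P Q x = 0 ↔ (Set.range fun n => (ratApply P Q)^[n] x).Finite := by
  obtain ⟨C, hC⟩ := exists_tendsto_canonicalHeight hc hd
  constructor
  · intro h
    refine (finite_pointHeight_le C).subset ?_
    rintro _ ⟨n, rfl⟩
    have h0 : canonicalHeight P Q ((ratApply P Q)^[n] x) = 0 := by
      induction n with
      | zero => exact h
      | succ n ih => rw [Function.iterate_succ_apply', canonicalHeight_ratApply hc hd, ih, mul_zero]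
    have := (abs_le.1 (hC ((ratApply P Q)^[n] x)).2).1
    show pointHeight _ ≤ C
    linarith
  · intro hfin
    obtain ⟨B, hB⟩ := (hfin.image pointHeight).bddAbove
    refine tendsto_nhds_unique (hC x).1 (squeeze_zero (fun n => ?_) (fun n => ?_)
      ((tendsto_const_nhds (x := B)).div_atTop
        (tendsto_pow_atTop_atTop_of_one_lt (Nat.one_lt_cast.2 hd))))
    · exact div_nonneg (logHeight_nonneg _) (by positivity)
    · exact div_le_div_of_nonneg_right (hB ⟨_, ⟨n, rfl⟩, rfl⟩) (by positivity)

/-- **Northcott's theorem**: finitely many preperiodic points. -/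
theorem finite_preperiodic [Northcott (logHeight₁ (K := K))] (hc : IsCoprime P Q)
    (hd : 2 ≤ degree P Q) :
    {x : OnePoint K | (Set.range fun n => (ratApply P Q)^[n] x).Finite}.Finite := by
  obtain ⟨C, hC⟩ := exists_tendsto_canonicalHeight hc hd
  refine (finite_pointHeight_le C).subset fun x hx => ?_
  have := (abs_le.1 (hC x).2).1
  rw [(canonicalHeight_eq_zero_iff hc hd x).2 hx] at this
  show pointHeight x ≤ C
  linarith

end FA.ArithmeticDynamics

end
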