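import Fermat.Agent.ArithmeticDynamics.Reduction
import Mathlib.FieldTheory.IsAlgClosed.Basic

/-!
# Poles of the fourth iterate

At most two values of a rational function of degree at least two have a single preimage, so if
`φ ∘ φ` is no polynomial then `φ^[4]` has at least three poles.
-/

set_option autoImplicit false

noncomputable section

open Polynomial OnePoint

namespace FA.ArithmeticDynamics

/-- The fibre over `c` has at most one point. -/
def SingleFibre {X : Type*} (f : X → X) (c : X) : Prop := ∀ x y, f x = c → f y = c → x = y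

/-- **The combinatorics**: at most two single fibres force three points over `o` in four steps. -/
theorem exists_three_preimages {X : Type*} {f : X → X} (hf : Function.Surjective f)
    (h3 : ∀ c : Fin 3 → X, Function.Injective c → ∃ i, ¬SingleFibre f (c i))
    {o : X} (ho : ∃ y, y ≠ o ∧ f (f y) = o) :
    ∃ b : Fin 3 → X, Function.Injective b ∧ ∀ i, f^[4] (b i) = o := by
  classical
  obtain ⟨g, hg⟩ := hf.hasRightInverse
  have hinj : Function.Injective g := hg.injective
  have three : ∀ {a b c : X}, SingleFibre f a → SingleFibre f b → SingleFibre f c →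
      a ≠ b → a ≠ c → b ≠ c → False := by
    intro a b c ha hb hc hab hac hbc
    obtain ⟨i, hi⟩ := h3 ![a, b, c] (by
      intro i j h
      fin_cases i <;> fin_cases j <;> simp_all [eq_comm])
    fin_cases i <;> simp_all
  by_contra hno
  have lift : ∀ n, n ≤ 4 → ∀ b : Fin 3 → X, Function.Injective b →
      (∀ i, f^[n] (b i) = o) → False := by
    intro n hn
    induction hn using Nat.decreasingInduction with
    | self => exact fun b hb h => hno ⟨b, hb, h⟩
    | of_succ k _ ih =>
      exact fun b hb h => ih (g ∘ b) (hinj.comp hb) fun i => by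
        rw [Function.iterate_succ_apply, Function.comp_apply, hg]
        exact h i
  have single : ∀ n, n < 4 → ∀ {x y : X}, f^[n] x = o → f^[n] y = o → x ≠ y →
      SingleFibre f x := by
    intro n hn x y hx hy hxy
    by_contra h
    simp only [SingleFibre, not_forall] at h
    obtain ⟨p, q, hp, hq, hpq⟩ := h
    refine lift (n + 1) hn ![p, q, g y] ?_ fun i => ?_
    · have h1 : p ≠ g y := fun e => hxy (by rw [← hp, e, hg])
      have h2 : q ≠ g y := fun e => hxy (by rw [← hq, e, hg])
      intro i j h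
      fin_cases i <;> fin_cases j <;> simp_all [eq_comm]
    · rw [Function.iterate_succ_apply]
      fin_cases i
      · simpa [hp] using hx
      · simpa [hq] using hx
      · simpa [hg y] using hy
  have two : ∀ n, n < 4 → ∀ {x y : X}, f^[n] x = o → f^[n] y = o → x ≠ y →
      SingleFibre f x ∧ SingleFibre f y := fun n hn x y hx hy h =>
    ⟨single n hn hx hy h, single n hn hy hx h.symm⟩
  obtain ⟨z, hzo, hz⟩ := ho
  by_cases hO : SingleFibre f o
  · set q := g o with hq
    have hfq : f q = o := hg o
    have hqo : q ≠ o := fun e => by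
      have := hO (f z) q hz hfq
      rw [e] at this
      exact hzo (hO z q this hfq |>.trans e)
    by_cases hQ : SingleFibre f q
    · set r := g q with hr
      have hfr : f r = q := hg q
      have hro : r ≠ o := fun e => hzo ((hQ z r (hO (f z) q hz hfq) hfr).trans e)
      have hrq : r ≠ q := fun e => hqo (by rw [← hfr, e, hfq])
      obtain ⟨s, t, hs, ht, hst⟩ : ∃ s t, f s = r ∧ f t = r ∧ s ≠ t := by
        by_contra h
        exact three hO hQ (fun s t hs ht => by_contra fun hne => h ⟨s, t, hs, ht, hne⟩) hqo.symm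
          hro.symm hrq.symm
      obtain ⟨hS, hT⟩ := two 3 (by omega) (x := s) (y := t) (by simp [hs, hfr, hfq])
        (by simp [ht, hfr, hfq]) hst
      have hsq : s ≠ q := fun e => hro (by rw [← hs, e, hfq])
      have htq : t ≠ q := fun e => hro (by rw [← ht, e, hfq])
      rcases eq_or_ne s o with rfl | hso
      · exact three hS hQ hT hsq.symm.symm hst htq.symm
      · exact three hS hO hQ hso hsq hqo.symm
    · simp only [SingleFibre, not_forall] at hQ
      obtain ⟨r, r', hr, hr', hne⟩ := hQ
      obtain ⟨hR, hR'⟩ := two 2 (by omega) (x := r) (y := r') (by simp [hr, hfq])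
        (by simp [hr', hfq]) hne
      obtain ⟨s, hs, hso⟩ : ∃ s, f s = q ∧ s ≠ o := by
        rcases eq_or_ne r o with e | e
        · exact ⟨r', hr', fun e' => hne (e.trans e'.symm)⟩
        · exact ⟨r, hr, e⟩
      have hfo : f o = q := by
        by_contra h
        exact three hO hR hR' (fun e => h (e ▸ hr)) (fun e => h (e ▸ hr')) hne
      have h1 := single 3 (by omega) (x := q) (y := g s) (by simp [hfq, hfo])
        (by simp [hg s, hs, hfq]) fun e => hso ((hg s).symm.trans ((congrArg f e).symm.trans hfq))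
      exact hne (h1 r r' hr hr')
  · simp only [SingleFibre, not_forall] at hO
    obtain ⟨s, t, hs, ht, hst⟩ := hO
    obtain ⟨hS, hT⟩ := two 1 (by omega) (x := s) (y := t) (by simp [hs]) (by simp [ht]) hst
    obtain ⟨hS', hT'⟩ := two 2 (by omega) (x := g s) (y := g t) (by simp [hg s, hs])
      (by simp [hg t, ht]) (hinj.ne hst)
    have key : ∀ u, f u = o → SingleFibre f (g u) → u = o := by
      intro u hu hU
      by_contra h
      rcases eq_or_ne (g u) s with e | e
      · exact h (by rw [← hg u, e, hs])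
      rcases eq_or_ne (g u) t with e' | e'
      · exact h (by rw [← hg u, e', ht])
      exact three hU hS hT e e' hst
    exact hst ((key s hs hS').trans (key t ht hT').symm)

variable {F : Type*} [Field F] [IsAlgClosed F] {P Q : F[X]}

/-- The polynomial whose roots are the finite preimages of `c`. -/
def fibrePoly (P Q : F[X]) (c : OnePoint F) : F[X] := C (rep c 1) * P - C (rep c 0) * Q

omit [IsAlgClosed F] in
theorem natDegree_fibrePoly_le (c : OnePoint F) :
    (fibrePoly P Q c).natDegree ≤ degree P Q :=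
  (natDegree_sub_le _ _).trans (max_le ((natDegree_C_mul_le _ _).trans (natDegree_left_le P Q))
    ((natDegree_C_mul_le _ _).trans (natDegree_right_le P Q)))

omit [IsAlgClosed F] in
theorem ratApply_eq_iff (hc : IsCoprime P Q) (x c : OnePoint F) :
    ratApply P Q x = c ↔
      rep c 1 * form P (degree P Q) (rep x) - rep c 0 * form Q (degree P Q) (rep x) = 0 := by
  conv_lhs => rw [ratApply, ← toPoint_rep c,
    toPoint_eq_toPoint_iff (forms_ne_zero hc (rep_ne_zero x)) (rep_ne_zero c)]
  simp [wedge, mul_comm]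

omit [IsAlgClosed F] in
theorem ratApply_coe_eq_iff (hc : IsCoprime P Q) (z : F) (c : OnePoint F) :
    ratApply P Q z = c ↔ (fibrePoly P Q c).eval z = 0 := by
  rw [ratApply_eq_iff hc, rep_coe, form_coe _ (natDegree_left_le P Q),
    form_coe _ (natDegree_right_le P Q)]
  simp [fibrePoly]

omit [IsAlgClosed F] in
theorem ratApply_infty_eq_iff (hc : IsCoprime P Q) (c : OnePoint F) :
    ratApply P Q ∞ = c ↔ (fibrePoly P Q c).coeff (degree P Q) = 0 := by
  rw [ratApply_eq_iff hc, rep_infty, form_infty, form_infty]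
  simp [fibrePoly]

theorem ratApply_surjective (hc : IsCoprime P Q) (hd : 1 ≤ degree P Q) :
    Function.Surjective (ratApply P Q) := by
  intro c
  by_cases h : (fibrePoly P Q c).coeff (degree P Q) = 0
  · exact ⟨∞, (ratApply_infty_eq_iff hc c).2 h⟩
  · obtain ⟨z, hz⟩ := IsAlgClosed.exists_root (fibrePoly P Q c) fun e => h
      (coeff_eq_zero_of_natDegree_lt (by rw [natDegree_eq_of_degree_eq_some (n := 0) e]; omega))
    exact ⟨z, (ratApply_coe_eq_iff hc z c).2 hz⟩

/-- A single finite preimage is a root of full multiplicity. -/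
theorem fibrePoly_eq_pow (hc : IsCoprime P Q) {c : OnePoint F} {r : F}
    (h : SingleFibre (ratApply P Q) c) (hr : ratApply P Q r = c) :
    ∃ a : F, a ≠ 0 ∧ fibrePoly P Q c = C a * (X - C r) ^ degree P Q := by
  set R := fibrePoly P Q c with hR
  have hcoeff : R.coeff (degree P Q) ≠ 0 := fun e =>
    OnePoint.infty_ne_coe r (h ∞ r ((ratApply_infty_eq_iff hc c).2 e) hr)
  have hR0 : R ≠ 0 := fun e => hcoeff (by rw [e, coeff_zero])
  have hdeg : R.natDegree = degree P Q :=
    le_antisymm (natDegree_fibrePoly_le c) (le_natDegree_of_ne_zero hcoeff)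
  have hroots : R.roots = Multiset.replicate (degree P Q) r := by
    refine Multiset.eq_replicate.2 ⟨?_, fun z hz => ?_⟩
    · rw [← hdeg, (IsAlgClosed.splits R).natDegree_eq_card_roots]
    · exact OnePoint.coe_eq_coe.1
        (h z r ((ratApply_coe_eq_iff hc z c).2 ((mem_roots hR0).1 hz)) hr)
  refine ⟨R.leadingCoeff, leadingCoeff_ne_zero.2 hR0, ?_⟩
  conv_lhs => rw [(IsAlgClosed.splits R).eq_prod_roots, hroots]
  simp

theorem fibrePoly_natDegree_zero (hc : IsCoprime P Q) {c : OnePoint F}
    (h : SingleFibre (ratApply P Q) c) (hr : ratApply P Q ∞ = c) :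
    (fibrePoly P Q c).natDegree = 0 := by
  by_contra hne
  obtain ⟨z, hz⟩ := IsAlgClosed.exists_root (fibrePoly P Q c) fun e =>
    hne (natDegree_eq_of_degree_eq_some (n := 0) e)
  exact OnePoint.coe_ne_infty z (h z ∞ ((ratApply_coe_eq_iff hc z c).2 hz) hr)

variable [CharZero F]

/-- **At most two values have a single preimage.** -/
theorem exists_not_singleFibre (hc : IsCoprime P Q) (hd : 2 ≤ degree P Q) 
    {c : Fin 3 → OnePoint F} (hcinj : Function.Injective c) :
    ∃ i, ¬SingleFibre (ratApply P Q) (c i) := by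
  by_contra hall
  push Not at hall
  choose r hr using fun i => ratApply_surjective hc (by omega) (c i)
  have hrinj : Function.Injective r := fun i j h => hcinj (by rw [← hr i, ← hr j, h])
  obtain ⟨σ, h0, h1⟩ : ∃ σ : Equiv.Perm (Fin 3), r (σ 0) ≠ ∞ ∧ r (σ 1) ≠ ∞ := by
    by_cases e0 : r 0 = ∞
    · exact ⟨Equiv.swap 0 2, fun e => absurd (hrinj (e.trans e0.symm)) (by decide),
        fun e => absurd (hrinj (e.trans e0.symm)) (by decide)⟩
    by_cases e1 : r 1 = ∞
    · exact ⟨Equiv.swap 1 2, fun e => absurd (hrinj (e.trans e1.symm)) (by decide),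
        fun e => absurd (hrinj (e.trans e1.symm)) (by decide)⟩
    exact ⟨Equiv.refl _, e0, e1⟩
  obtain ⟨r₁, hr₁⟩ := OnePoint.ne_infty_iff_exists.1 h0
  obtain ⟨r₂, hr₂⟩ := OnePoint.ne_infty_iff_exists.1 h1
  obtain ⟨a₁, ha₁, hA⟩ := fibrePoly_eq_pow hc (hall (σ 0)) (hr₁ ▸ hr (σ 0))
  obtain ⟨a₂, ha₂, hB⟩ := fibrePoly_eq_pow hc (hall (σ 1)) (hr₂ ▸ hr (σ 1))
  set d := degree P Q with hdd
  have h12 : r₁ ≠ r₂ := fun e => absurd (σ.injective (hrinj
    (show r (σ 0) = r (σ 1) by rw [← hr₁, ← hr₂, e]))) (by decide)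
  set u := rep (c (σ 0))
  set v := rep (c (σ 1))
  set t := rep (c (σ 2))
  have hne : ∀ i j, i ≠ j → wedge (rep (c (σ i))) (rep (c (σ j))) ≠ 0 := fun i j hij e =>
    hij (σ.injective (hcinj (wedge_rep_eq_zero_iff.1 e)))
  have hlin : C (wedge u v) * fibrePoly P Q (c (σ 2)) =
      C (wedge t v * a₁) * (X - C r₁) ^ d + C (wedge u t * a₂) * (X - C r₂) ^ d := by
    rw [map_mul, map_mul, mul_assoc, mul_assoc, ← hA, ← hB]
    simp only [fibrePoly, wedge, map_sub, map_mul, u, v, t]
    ring
  have hp : wedge t v * a₁ ≠ 0 := mul_ne_zero (hne 2 1 (by decide)) ha₁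
  have hq : wedge u t * a₂ ≠ 0 := mul_ne_zero (hne 0 2 (by decide)) ha₂
  have hd' : ((d : F)) ≠ 0 := Nat.cast_ne_zero.2 (by omega)
  have hd1 : d - 1 ≠ 0 := by omega
  have hder := congrArg derivative hlin
  simp only [derivative_mul, derivative_C, derivative_pow, derivative_X_sub_C, zero_mul, zero_add,
    derivative_add, mul_one] at hder
  by_cases h2 : r (σ 2) = ∞
  · have h := fibrePoly_natDegree_zero hc (hall (σ 2)) (h2 ▸ hr (σ 2))
    rw [eq_C_of_natDegree_eq_zero h, derivative_C, mul_zero] at hder
    have := congrArg (Polynomial.eval r₁) hder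
    simp [hd1, hd', hq, sub_eq_zero, h12] at this
  · obtain ⟨r₃, hr₃⟩ := OnePoint.ne_infty_iff_exists.1 h2
    obtain ⟨a₃, -, hC⟩ := fibrePoly_eq_pow hc (hall (σ 2)) (hr₃ ▸ hr (σ 2))
    have h13 : r₃ ≠ r₁ := fun e => absurd (σ.injective (hrinj
      (show r (σ 2) = r (σ 0) by rw [← hr₃, ← hr₁, e]))) (by decide)
    have h23 : r₃ ≠ r₂ := fun e => absurd (σ.injective (hrinj
      (show r (σ 2) = r (σ 1) by rw [← hr₃, ← hr₂, e]))) (by decide)
    rw [← hdd] at hC
    rw [hC] at hder hlin
    have e0 := congrArg (Polynomial.eval r₃) hlin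
    have e1 := congrArg (Polynomial.eval r₃) hder
    simp [zero_pow (show d ≠ 0 by omega), hd1, derivative_pow] at e0 e1
    set p := wedge t v * a₁
    set q := wedge u t * a₂
    have key : q * (r₃ - r₂) ^ (d - 1) * (d : F) * (r₁ - r₂) = 0 := by
      have e : ∀ s : F, s ^ d = s ^ (d - 1) * s := fun s => by
        rw [← pow_succ]; congr 1; omega
      rw [e, e] at e0
      linear_combination (r₃ - r₁) * e1 - (d : F) * e0
    simp [hq, hd', sub_eq_zero, h12, h23] at key

/-- **Three poles of the fourth iterate.** -/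
theorem exists_three_poles (hc : IsCoprime P Q) (hd : 2 ≤ degree P Q)
    (h : ∃ z : F, ratApply P Q (ratApply P Q z) = ∞) :
    ∃ b : Fin 3 → OnePoint F, Function.Injective b ∧ ∀ i, (ratApply P Q)^[4] (b i) = ∞ :=
  exists_three_preimages (ratApply_surjective hc (by omega))
    (fun _ hcinj => exists_not_singleFibre hc hd hcinj)
    (h.elim fun z hz => ⟨z, OnePoint.coe_ne_infty z, hz⟩)

end FA.ArithmeticDynamics

end
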