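import Fermat.Agent.ArithmeticDynamics.Basic
import Fermat.Agent.DecomposableForms.GeneralPosition
import Mathlib.NumberTheory.NumberField.Completion.FinitePlace

/-!
# Avoiding points modulo primes

If the image of `x` avoids the image of `b` modulo a prime of good reduction then `x` avoids `b`;
and finitely many points avoid three given ones modulo all primes outside a finite set.
-/

set_option autoImplicit false

noncomputable section

open Polynomial OnePoint NumberField IsDedekindDomain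

namespace FA.ArithmeticDynamics

variable {L : Type*} [Field L]

/-- The cross product of two coordinate pairs. -/
def wedge (v u : Fin 2 → L) : L := v 0 * u 1 - v 1 * u 0

/-- The sup norm for an absolute value. -/
def supNorm (w : AbsoluteValue L ℝ) (v : Fin 2 → L) : ℝ := max (w (v 0)) (w (v 1))

/-- `x` and `a` differ modulo `w`. -/
def Avoids (w : AbsoluteValue L ℝ) (a x : OnePoint L) : Prop :=
  w (wedge (rep x) (rep a)) = supNorm w (rep x) * supNorm w (rep a)

/-- Integral coefficients and forms without common zero modulo `w`. -/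
def Good (w : AbsoluteValue L ℝ) (P Q : L[X]) : Prop :=
  (∀ i, w (P.coeff i) ≤ 1 ∧ w (Q.coeff i) ≤ 1) ∧
    ∀ v, supNorm w v = 1 → 1 ≤ max (w (form P (degree P Q) v)) (w (form Q (degree P Q) v))

theorem wedge_smul (c e : L) (v u : Fin 2 → L) : wedge (c • v) (e • u) = c * e * wedge v u := by
  simp only [wedge, Pi.smul_apply, smul_eq_mul]
  ring

theorem wedge_rep_eq_zero_iff {x y : OnePoint L} : wedge (rep x) (rep y) = 0 ↔ x = y := by
  induction x using OnePoint.rec <;> induction y using OnePoint.rec <;>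
    simp [wedge, rep, sub_eq_zero]

theorem toPoint_eq_toPoint_iff {v u : Fin 2 → L} (hv : v ≠ 0) (hu : u ≠ 0) :
    toPoint v = toPoint u ↔ wedge v u = 0 := by
  obtain ⟨c, hc, he⟩ := exists_smul_rep hv
  obtain ⟨e, he0, hf⟩ := exists_smul_rep hu
  rw [← wedge_rep_eq_zero_iff, he, hf, wedge_smul]
  simp [hc, he0]

variable {w : AbsoluteValue L ℝ}

theorem supNorm_smul (c : L) (v : Fin 2 → L) : supNorm w (c • v) = w c * supNorm w v := by
  simp [supNorm, mul_max_of_nonneg]

theorem avoids_toPoint {v u : Fin 2 → L} (hv : v ≠ 0) (hu : u ≠ 0) :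
    Avoids w (toPoint u) (toPoint v) ↔ w (wedge v u) = supNorm w v * supNorm w u := by
  obtain ⟨c, hc, he⟩ := exists_smul_rep hv
  obtain ⟨e, he0, hf⟩ := exists_smul_rep hu
  rw [Avoids, he, hf, wedge_smul, supNorm_smul, supNorm_smul, map_mul, map_mul, mul_mul_mul_comm]
  exact mul_right_inj' (mul_ne_zero (w.ne_zero hc) (w.ne_zero he0))

theorem exists_normalised (w : AbsoluteValue L ℝ) (x : OnePoint L) :
    ∃ v, v ≠ 0 ∧ supNorm w v = 1 ∧ toPoint v = x := by
  obtain ⟨i, hi⟩ : ∃ i, supNorm w (rep x) = w (rep x i) := by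
    rcases max_choice (w (rep x 0)) (w (rep x 1)) with h | h <;> exact ⟨_, h⟩
  have h0 : rep x i ≠ 0 := fun h => rep_ne_zero x (funext fun j => w.eq_zero.1 (le_antisymm
    ((show w (rep x j) ≤ supNorm w (rep x) by
      fin_cases j
      · exact le_max_left _ _
      · exact le_max_right _ _).trans_eq (by rw [hi, h, map_zero])) (w.nonneg _)))
  refine ⟨(rep x i)⁻¹ • rep x, smul_ne_zero (inv_ne_zero h0) (rep_ne_zero x), ?_, ?_⟩
  · rw [supNorm_smul, hi, map_inv₀, inv_mul_cancel₀ (w.ne_zero h0)]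
  · rw [toPoint_smul (inv_ne_zero h0), toPoint_rep]

theorem avoids_infty {t : L} (ht : w t ≤ 1) : Avoids w ∞ t := by
  simp [Avoids, rep, wedge, supNorm, ht]

variable (hw : IsNonarchimedean w)

include hw

theorem abv_sub_le (x y : L) : w (x - y) ≤ max (w x) (w y) := by
  simpa [sub_eq_add_neg] using hw x (-y)

theorem abv_form_le {R : L[X]} (hR : ∀ i, w (R.coeff i) ≤ 1) (d : ℕ) {v : Fin 2 → L}
    (hv : ∀ i, w (v i) ≤ 1) : w (form R d v) ≤ 1 := by
  rw [form_eq_sum]
  refine Finset.sum_induction _ (fun y => w y ≤ 1) (fun a b ha hb => (hw a b).trans (max_le ha hb))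
    (by simp) fun p _ => ?_
  simp only [map_mul, map_pow]
  exact mul_le_one₀ (hR _) (by positivity) (mul_le_one₀ (pow_le_one₀ (w.nonneg _) (hv 0))
    (by positivity) (pow_le_one₀ (w.nonneg _) (hv 1)))

theorem abv_pow_sub_le {x y : L} (hx : w x ≤ 1) (hy : w y ≤ 1) (n : ℕ) :
    w (x ^ n - y ^ n) ≤ w (x - y) := by
  induction n with
  | zero => simp
  | succ n ih =>
    rw [show x ^ (n + 1) - y ^ (n + 1) = (x ^ n - y ^ n) * x + y ^ n * (x - y) by ring]
    refine (hw _ _).trans (max_le ?_ ?_) <;> rw [map_mul]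
    · exact (mul_le_of_le_one_right (w.nonneg _) hx).trans ih
    · exact mul_le_of_le_one_left (w.nonneg _) (by rw [map_pow]; exact pow_le_one₀ (w.nonneg _) hy)

theorem abv_form_sub_le {R : L[X]} (hR : ∀ i, w (R.coeff i) ≤ 1) (d : ℕ) {v u : Fin 2 → L}
    (hv : ∀ i, w (v i) ≤ 1) (hu : ∀ i, w (u i) ≤ 1) {δ : ℝ} (h : ∀ i, w (v i - u i) ≤ δ) :
    w (form R d v - form R d u) ≤ δ := by
  have hδ : 0 ≤ δ := (w.nonneg _).trans (h 0)
  rw [form_eq_sum, form_eq_sum, ← Finset.sum_sub_distrib]
  refine Finset.sum_induction _ (fun y => w y ≤ δ) (fun a b ha hb => (hw a b).trans (max_le ha hb))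
    (by simpa using hδ) fun p _ => ?_
  rw [← mul_sub, map_mul]
  refine (mul_le_of_le_one_left (w.nonneg _) (hR _)).trans ?_
  rw [show v 0 ^ p.1 * v 1 ^ p.2 - u 0 ^ p.1 * u 1 ^ p.2 =
    (v 0 ^ p.1 - u 0 ^ p.1) * v 1 ^ p.2 + u 0 ^ p.1 * (v 1 ^ p.2 - u 1 ^ p.2) by ring]
  refine (hw _ _).trans (max_le ?_ ?_) <;> rw [map_mul]
  · exact (mul_le_of_le_one_right (w.nonneg _)
      (by rw [map_pow]; exact pow_le_one₀ (w.nonneg _) (hv 1))).trans
        ((abv_pow_sub_le hw (hv 0) (hu 0) _).trans (h 0))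
  · exact (mul_le_of_le_one_left (w.nonneg _)
      (by rw [map_pow]; exact pow_le_one₀ (w.nonneg _) (hu 0))).trans
        ((abv_pow_sub_le hw (hv 1) (hu 1) _).trans (h 1))

theorem abv_wedge_le {v u : Fin 2 → L} (hv : ∀ i, w (v i) ≤ 1) (hu : ∀ i, w (u i) ≤ 1) :
    w (wedge v u) ≤ 1 :=
  (abv_sub_le hw _ _).trans (by
    simp only [map_mul]
    exact max_le (mul_le_one₀ (hv 0) (w.nonneg _) (hu 1))
      (mul_le_one₀ (hv 1) (w.nonneg _) (hu 0)))

variable {P Q : L[X]}

omit hw in
theorem abv_le_one_of_supNorm {z : Fin 2 → L} (hz : supNorm w z = 1) (i : Fin 2) : w (z i) ≤ 1 := by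
  fin_cases i
  · exact (le_max_left _ _).trans_eq hz
  · exact (le_max_right _ _).trans_eq hz

omit hw in
theorem ne_zero_of_supNorm {z : Fin 2 → L} (hz : supNorm w z = 1) : z ≠ 0 := fun e => by
  rw [e] at hz
  simp [supNorm] at hz

theorem Good.supNorm_forms (hg : Good w P Q) {z : Fin 2 → L} (hz : supNorm w z = 1) :
    supNorm w ![form P (degree P Q) z, form Q (degree P Q) z] = 1 :=
  le_antisymm (max_le (abv_form_le hw (fun i => (hg.1 i).1) _ (abv_le_one_of_supNorm hz))
    (abv_form_le hw (fun i => (hg.1 i).2) _ (abv_le_one_of_supNorm hz))) (hg.2 z hz)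

/-- **Contraction**: the forms do not increase the cross product. -/
theorem Good.abv_wedge_forms_le (hg : Good w P Q) {v u : Fin 2 → L} (hv1 : supNorm w v = 1)
    (hu1 : supNorm w u = 1) :
    w (wedge ![form P (degree P Q) v, form Q (degree P Q) v]
      ![form P (degree P Q) u, form Q (degree P Q) u]) ≤ w (wedge v u) := by
  have hv := abv_le_one_of_supNorm hv1
  have hu := abv_le_one_of_supNorm hu1
  obtain ⟨i, hi⟩ : ∃ i, w (u i) = 1 := by
    rcases max_choice (w (u 0)) (w (u 1)) with e | e <;> exact ⟨_, e.symm.trans hu1⟩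
  have hui : u i ≠ 0 := fun e => by simp [e] at hi
  set F := form P (degree P Q)
  set G := form Q (degree P Q)
  set t := v i / u i with ht
  have ht1 : w t ≤ 1 := by rw [ht, map_div₀, hi, div_one]; exact hv i
  have hd : ∀ j, w (v j - (t • u) j) ≤ w (wedge v u) := by
    intro j
    have e : w (v j - (t • u) j) = w (v j * u i - v i * u j) := by
      rw [Pi.smul_apply, smul_eq_mul, ht, div_mul_eq_mul_div, sub_div' hui, map_div₀, hi, div_one]
    rw [e]
    fin_cases i <;> fin_cases j <;> simp [wedge, mul_comm] <;> rw [w.map_sub]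
  have htu : ∀ j, w ((t • u) j) ≤ 1 := fun j => by
    simpa using mul_le_one₀ ht1 (w.nonneg _) (hu j)
  have hF := abv_form_sub_le hw (fun k => (hg.1 k).1) (degree P Q) hv htu hd
  have hG := abv_form_sub_le hw (fun k => (hg.1 k).2) (degree P Q) hv htu hd
  rw [form_smul] at hF hG
  have e : wedge ![F v, G v] ![F u, G u] =
      (F v - t ^ degree P Q * F u) * G u - (G v - t ^ degree P Q * G u) * F u := by
    show F v * G u - G v * F u = _
    ring
  rw [e]
  refine (abv_sub_le hw _ _).trans (max_le ?_ ?_)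
  · rw [map_mul]
    exact (mul_le_of_le_one_right (w.nonneg _) (abv_form_le hw (fun k => (hg.1 k).2) _ hu)).trans hF
  · rw [map_mul]
    exact (mul_le_of_le_one_right (w.nonneg _) (abv_form_le hw (fun k => (hg.1 k).1) _ hu)).trans hG

/-- **Avoidance pulls back.** -/
theorem Avoids.of_ratApply (hg : Good w P Q) {b x : OnePoint L}
    (h : Avoids w (ratApply P Q b) (ratApply P Q x)) : Avoids w b x := by
  obtain ⟨v, hv, hv1, rfl⟩ := exists_normalised w x
  obtain ⟨u, hu, hu1, rfl⟩ := exists_normalised w b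
  rw [ratApply_toPoint P Q hu, ratApply_toPoint P Q hv,
    avoids_toPoint (ne_zero_of_supNorm (hg.supNorm_forms hw hv1))
      (ne_zero_of_supNorm (hg.supNorm_forms hw hu1)),
    hg.supNorm_forms hw hv1, hg.supNorm_forms hw hu1, mul_one] at h
  rw [avoids_toPoint hv hu, hv1, hu1, mul_one]
  exact le_antisymm (abv_wedge_le hw (abv_le_one_of_supNorm hv1) (abv_le_one_of_supNorm hu1))
    (h.symm.trans_le (hg.abv_wedge_forms_le hw hv1 hu1))

theorem Avoids.of_iterate (hg : Good w P Q) (n : ℕ) {b x : OnePoint L}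
    (h : Avoids w ((ratApply P Q)^[n] b) ((ratApply P Q)^[n] x)) : Avoids w b x := by
  induction n generalizing b x with
  | zero => exact h
  | succ n ih =>
    rw [Function.iterate_succ_apply, Function.iterate_succ_apply] at h
    exact (ih h).of_ratApply hw hg

omit hw

variable [NumberField L]

theorem exists_primes_integral (T : Finset L) :
    ∃ S : Finset (HeightOneSpectrum (𝓞 L)), ∀ v ∉ S, ∀ t ∈ T,
      HeightOneSpectrum.adicAbv L v t ≤ 1 := by
  classical
  obtain ⟨S, hS⟩ := DecomposableForms.exists_primes_isSUnit (fun t : ↥(T.filter (· ≠ 0)) => (t : L))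
    fun t => (Finset.mem_filter.1 t.2).2
  refine ⟨S, fun v hv t ht => ?_⟩
  by_cases h : t = 0
  · simp [h]
  · exact ((hS ⟨t, Finset.mem_filter.2 ⟨ht, h⟩⟩).2 v hv).le

theorem coeff_mem_insert [DecidableEq L] (R : L[X]) (i : ℕ) :
    R.coeff i ∈ insert 0 (R.support.image R.coeff) := by
  by_cases h : R.coeff i = 0
  · simp [h]
  · exact Finset.mem_insert_of_mem (Finset.mem_image_of_mem _ (mem_support_iff.2 h))

/-- **Good reduction** at almost all primes. -/
theorem exists_primes_good (hc : IsCoprime P Q) :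
    ∃ S : Finset (HeightOneSpectrum (𝓞 L)), ∀ v ∉ S, Good (HeightOneSpectrum.adicAbv L v) P Q := by
  classical
  set d := degree P Q with hd
  obtain ⟨a₁, b₁, ha₁, hb₁, h₁⟩ := exists_combination hc (R := 1) (by simp)
  obtain ⟨a₀, b₀, ha₀, hb₀, h₀⟩ := exists_combination hc (R := X ^ (2 * d)) (by simp [hd])
  obtain ⟨S, hS⟩ := exists_primes_integral (({P, Q, a₀, b₀, a₁, b₁} : Finset L[X]).biUnion
    fun R => insert 0 (R.support.image R.coeff))
  refine ⟨S, fun v hv => ?_⟩
  have hint : ∀ R ∈ ({P, Q, a₀, b₀, a₁, b₁} : Finset L[X]), ∀ i,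
      HeightOneSpectrum.adicAbv L v (R.coeff i) ≤ 1 := fun R hR i =>
    hS v hv _ (Finset.mem_biUnion.2 ⟨R, hR, coeff_mem_insert R i⟩)
  refine ⟨fun i => ⟨hint P (by simp) i, hint Q (by simp) i⟩, fun z hz => ?_⟩
  set w := HeightOneSpectrum.adicAbv L v
  have hw : IsNonarchimedean w := HeightOneSpectrum.isNonarchimedean_adicAbv L v
  have hz1 : ∀ i, w (z i) ≤ 1 := fun i => by
    fin_cases i
    · exact (le_max_left _ _).trans_eq hz
    · exact (le_max_right _ _).trans_eq hz
  have key : ∀ a b R : L[X], a.natDegree ≤ d → b.natDegree ≤ d → a * P + b * Q = R →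
      (∀ i, w (a.coeff i) ≤ 1) → (∀ i, w (b.coeff i) ≤ 1) →
      w ((R.homogenize (d + d)).eval z) ≤ max (w (form P d z)) (w (form Q d z)) := by
    intro a b R ha hb h hwa hwb
    rw [← h, homogenize_add, homogenize_mul _ _ ha (natDegree_left_le P Q),
      homogenize_mul _ _ hb (natDegree_right_le P Q), map_add, map_mul, map_mul]
    refine (hw _ _).trans (max_le_max ?_ ?_) <;> rw [map_mul]
    · exact mul_le_of_le_one_left (w.nonneg _) (abv_form_le hw hwa d hz1)
    · exact mul_le_of_le_one_left (w.nonneg _) (abv_form_le hw hwb d hz1)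
  rcases max_choice (w (z 0)) (w (z 1)) with e | e
  · simpa [two_mul, show w (z 0) = 1 from e.symm.trans hz] using
      key a₀ b₀ _ ha₀ hb₀ h₀ (hint a₀ (by simp)) (hint b₀ (by simp))
  · simpa [show w (z 1) = 1 from e.symm.trans hz] using
      key a₁ b₁ _ ha₁ hb₁ h₁ (hint a₁ (by simp)) (hint b₁ (by simp))

/-- **Finitely many points avoid three.** -/
theorem finite_avoiding {b : Fin 3 → OnePoint L} (hb : Function.Injective b)
    (S : Finset (HeightOneSpectrum (𝓞 L))) :
    {x : OnePoint L | ∀ v ∉ S, ∀ i,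
      Avoids (HeightOneSpectrum.adicAbv L v) (b i) x}.Finite := by
  classical
  set l : Fin 3 → Module.Dual L (Fin 2 → L) := fun i =>
    rep (b i) 1 • LinearMap.proj 0 - rep (b i) 0 • LinearMap.proj 1 with hl
  have hla : ∀ i z, l i z = wedge z (rep (b i)) := fun i z => by simp [hl, wedge, mul_comm]
  have hgen : DecomposableForms.InGeneralPosition l := by
    intro T hT
    rw [Module.finrank_fin_fun] at hT
    refine linearIndependent_iff'.2 fun s g hg j hj => ?_
    obtain ⟨k, hjk, hk⟩ : ∃ k, k ≠ (j : Fin 3) ∧ ∀ i ∈ T, i = j ∨ i = k := by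
      have : ∀ (T : Finset (Fin 3)) (j : Fin 3), T.card ≤ 2 → j ∈ T →
          ∃ k, k ≠ j ∧ ∀ i ∈ T, i = j ∨ i = k := by decide
      exact this T j hT j.2
    have h := LinearMap.congr_fun hg (rep (b k))
    simp only [LinearMap.coe_sum, Finset.sum_apply, LinearMap.smul_apply, LinearMap.zero_apply,
      hla, smul_eq_mul] at h
    rw [Finset.sum_eq_single j] at h
    · refine (mul_eq_zero.1 h).resolve_right fun e => hjk (hb (wedge_rep_eq_zero_iff.1 e))
    · intro i _ hij
      rw [(hk i i.2).resolve_left fun e => hij (Subtype.ext e), wedge_rep_eq_zero_iff.2 rfl,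
        mul_zero]
    · exact fun h => absurd hj h
  have hconn := hgen.connected (by simp) (by simp)
  obtain ⟨S₁, hS₁⟩ := exists_primes_integral
    ((Finset.univ : Finset (Fin 3 × Fin 2)).image fun p => rep (b p.1) p.2)
  obtain ⟨F, hF⟩ := DecomposableForms.exists_finite_unitPoints hconn (S ∪ S₁)
  refine ((F.image toPoint).finite_toSet.union (Set.finite_range b)).subset fun x hx => ?_
  by_cases hxb : x ∈ Set.range b
  · exact Or.inr hxb
  have hne : ∀ i, l i (rep x) ≠ 0 := fun i h => by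
    rw [hla, wedge_rep_eq_zero_iff] at h
    exact hxb ⟨i, h.symm⟩
  obtain ⟨y, hy, c, hc, he⟩ := hF (rep x) ⟨hne, fun i j => ⟨div_ne_zero (hne i) (hne j),
    fun v hv => by
      rw [Finset.mem_union, not_or] at hv
      have h1 : ∀ i, supNorm (HeightOneSpectrum.adicAbv L v) (rep (b i)) = 1 := fun i => by
        have hint : ∀ k, HeightOneSpectrum.adicAbv L v (rep (b i) k) ≤ 1 := fun k =>
          hS₁ v hv.2 _ (Finset.mem_image.2 ⟨(i, k), Finset.mem_univ _, rfl⟩)
        refine le_antisymm (max_le (hint 0) (hint 1)) ?_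
        generalize b i = y
        induction y using OnePoint.rec <;> simp [supNorm, rep]
      rw [map_div₀, hla, hla, hx v hv.1 i, hx v hv.1 j, h1, h1, div_self]
      rw [mul_one]
      intro h
      have := hx v hv.1 i
      rw [Avoids, h, zero_mul, map_eq_zero, ← hla] at this
      exact hne i this⟩⟩
  refine Or.inl (Finset.mem_coe.2 (Finset.mem_image.2 ⟨y, hy, ?_⟩))
  rw [← toPoint_rep x, he, toPoint_smul hc]

end FA.ArithmeticDynamics

end
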