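import Fermat.Agent.ArithmeticDynamics.Poles
import Fermat.Agent.Gyory.SIntegral
import Mathlib.FieldTheory.IsAlgClosed.AlgebraicClosure

/-!
# Silverman's theorem on integral points in orbits

When `φ ∘ φ` has a finite pole, three poles of `φ^[4]` in a number field `L` confine the `z` with
`S`-integral `φ^[4] z` to a finite set, so every orbit has finitely many `S`-integers.
-/

set_option autoImplicit false

noncomputable section

open Polynomial OnePoint NumberField IsDedekindDomain

namespace FA.ArithmeticDynamics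

variable {K : Type*} [Field K]

/-- The denominator of `φ ∘ φ`. -/
def squareDenom (P Q : K[X]) : K[X] :=
  ∑ i ∈ Finset.range (degree P Q + 1), C (Q.coeff i) * P ^ i * Q ^ (degree P Q - i)

theorem eval_squareDenom (P Q : K[X]) (z : K) :
    (squareDenom P Q).eval z = form Q (degree P Q) ![P.eval z, Q.eval z] := by
  rw [form_eq_sum, Finset.Nat.sum_antidiagonal_eq_sum_range_succ_mk, squareDenom, eval_finsetSum]
  refine Finset.sum_congr rfl fun i _ => ?_
  simp [mul_assoc]

theorem squareDenom_map {L : Type*} [Field L] (σ : K →+* L) (P Q : K[X]) :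
    (squareDenom P Q).map σ = squareDenom (P.map σ) (Q.map σ) := by
  simp [squareDenom, Polynomial.map_sum, degree]

theorem exists_square_pole {F : Type*} [Field F] [IsAlgClosed F] {P Q : F[X]}
    (hc : IsCoprime P Q) (h : 0 < (squareDenom P Q).natDegree) :
    ∃ z : F, ratApply P Q (ratApply P Q z) = ∞ := by
  obtain ⟨z, hz⟩ := IsAlgClosed.exists_root (squareDenom P Q) fun e =>
    h.ne' (natDegree_eq_of_degree_eq_some (n := 0) e)
  have hv : (![P.eval z, Q.eval z] : Fin 2 → F) ≠ 0 := by
    have := forms_ne_zero hc (rep_ne_zero (z : OnePoint F))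
    rwa [rep_coe, form_coe _ (natDegree_left_le P Q), form_coe _ (natDegree_right_le P Q)] at this
  refine ⟨z, ?_⟩
  have e : ratApply P Q z = toPoint ![P.eval z, Q.eval z] := by
    rw [ratApply, rep_coe, form_coe _ (natDegree_left_le P Q), form_coe _ (natDegree_right_le P Q)]
  rw [IsRoot, eval_squareDenom] at hz
  rw [e, ratApply_toPoint _ _ hv, toPoint, if_pos (by simpa using hz)]

variable [NumberField K]

/-- `S`-integers stay integral at almost all primes of an extension. -/
theorem exists_primes_map_integral {L : Type*} [Field L] [NumberField L] (σ : K →+* L)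
    (S : Finset (HeightOneSpectrum (𝓞 K))) :
    ∃ T : Finset (HeightOneSpectrum (𝓞 L)), ∀ t : K,
      (∀ v ∉ S, HeightOneSpectrum.adicAbv K v t ≤ 1) →
        ∀ v ∉ T, HeightOneSpectrum.adicAbv L v (σ t) ≤ 1 := by
  obtain ⟨N, hN, hint⟩ := Gyory.exists_nInt_integer (K := K) S.finite_toSet
  obtain ⟨T, hT⟩ := Subspace.exists_primes_unit (K := L) (fun _ : Unit => (N : 𝓞 L))
    fun _ => Nat.cast_ne_zero.2 hN
  refine ⟨T, fun t ht v hv => ?_⟩
  have hmem : t ∈ (S : Set (HeightOneSpectrum (𝓞 K))).integer K := fun w hw => by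
    have := ht w hw
    rwa [NumberField.HeightOneSpectrum.adicAbv_def, NNReal.coe_le_one,
      WithZeroMulInt.toNNReal_le_one_iff (NumberField.HeightOneSpectrum.one_lt_absNorm_nnreal w)]
      at this
  obtain ⟨k, hk⟩ := (Gyory.nInt_map_iff σ).2 (hint t hmem)
  have hN1 : HeightOneSpectrum.adicAbv L v (N : L) = 1 := by simpa using hT () v hv
  have h := FinitePlace.norm_le_one L v ⟨_, hk⟩
  rwa [FinitePlace.norm_embedding, show algebraMap (𝓞 L) L ⟨_, hk⟩ = (N : L) ^ k * σ t from rfl,
    map_mul, map_pow, hN1, one_pow, one_mul] at h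

/-- **Silverman's theorem**, the fourth iterate. -/
theorem finite_sIntegral_fourth {P Q : K[X]} (hc : IsCoprime P Q) (hd : 2 ≤ degree P Q)
    (hsq : 0 < (squareDenom P Q).natDegree) (S : Finset (HeightOneSpectrum (𝓞 K))) :
    {x : OnePoint K | ∃ t : K, (∀ v ∉ S, HeightOneSpectrum.adicAbv K v t ≤ 1) ∧
      (ratApply P Q)^[4] x = t}.Finite := by
  classical
  set ι := algebraMap K (AlgebraicClosure K)
  have hdeg : ∀ {E : Type _} [Field E] (σ : K →+* E), degree (P.map σ) (Q.map σ) = degree P Q :=
    fun σ => by simp [degree]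
  have hcι : IsCoprime (P.map ι) (Q.map ι) := by simpa using hc.map (mapRingHom ι)
  obtain ⟨b, hb, hb4⟩ := exists_three_poles hcι (hdeg ι ▸ hd) (exists_square_pole hcι (by
    rwa [← squareDenom_map, natDegree_map]))
  let L : IntermediateField K (AlgebraicClosure K) :=
    IntermediateField.adjoin K ((Finset.univ.image fun i => rep (b i) 0) : Set (AlgebraicClosure K))
  haveI : FiniteDimensional K L := IntermediateField.finiteDimensional_adjoin fun x _ =>
    Algebra.IsIntegral.isIntegral x
  haveI : NumberField L := NumberField.of_module_finite K L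
  set σ := algebraMap K L
  set j : L →+* AlgebraicClosure K := algebraMap L (AlgebraicClosure K)
  have hj : j.comp σ = ι := (IsScalarTower.algebraMap_eq K L (AlgebraicClosure K)).symm
  have hlift : ∀ i, ∃ y : OnePoint L, y.map j = b i := by
    intro i
    have hmem : rep (b i) 0 ∈ L := IntermediateField.subset_adjoin K _
      (Finset.mem_coe.2 (Finset.mem_image.2 ⟨i, Finset.mem_univ _, rfl⟩))
    generalize b i = y at hmem
    induction y using OnePoint.rec with
    | infty => exact ⟨∞, rfl⟩
    | coe z => exact ⟨↑(⟨z, hmem⟩ : L), rfl⟩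
  choose y hy using hlift
  have hsemi : ∀ (n : ℕ) (x : OnePoint L), ((ratApply (P.map σ) (Q.map σ))^[n] x).map j =
      (ratApply (P.map ι) (Q.map ι))^[n] (x.map j) := fun n x =>
    (show Function.Semiconj (OnePoint.map j) (ratApply (P.map σ) (Q.map σ))
      (ratApply (P.map ι) (Q.map ι)) from fun x => by
        rw [ratApply_map, Polynomial.map_map, Polynomial.map_map, hj]).iterate_right n x
  have hy4 : ∀ i, (ratApply (P.map σ) (Q.map σ))^[4] (y i) = ∞ := by
    intro i
    have h := hsemi 4 (y i)
    rw [hy, hb4] at h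
    generalize (ratApply (P.map σ) (Q.map σ))^[4] (y i) = z at h ⊢
    induction z using OnePoint.rec with
    | infty => rfl
    | coe z => exact absurd h (OnePoint.coe_ne_infty _)
  have hyinj : Function.Injective y := fun i k h => hb (by rw [← hy i, ← hy k, h])
  have hcσ : IsCoprime (P.map σ) (Q.map σ) := by simpa using hc.map (mapRingHom σ)
  obtain ⟨S₁, hS₁⟩ := exists_primes_good hcσ
  obtain ⟨S₂, hS₂⟩ := exists_primes_map_integral σ S
  refine ((finite_avoiding hyinj (S₁ ∪ S₂)).preimage (f := OnePoint.map σ) ?_).subset ?_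
  · exact (Option.map_injective σ.injective).injOn
  rintro x ⟨t, ht, hx⟩ v hv i
  rw [Finset.mem_union, not_or] at hv
  refine Avoids.of_iterate (NumberField.HeightOneSpectrum.isNonarchimedean_adicAbv L v)
    (hS₁ v hv.1) 4 ?_
  rw [hy4, ← (show Function.Semiconj (OnePoint.map σ) (ratApply P Q)
      (ratApply (P.map σ) (Q.map σ)) from ratApply_map σ P Q).iterate_right 4 x, hx]
  exact avoids_infty (hS₂ t ht v hv.2)

/-- **Silverman's theorem**: finitely many `S`-integers in each orbit. -/
theorem finite_sIntegral_orbit {P Q : K[X]} (hc : IsCoprime P Q) (hd : 2 ≤ degree P Q)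
    (hsq : 0 < (squareDenom P Q).natDegree) (S : Finset (HeightOneSpectrum (𝓞 K)))
    (x : OnePoint K) :
    {t : K | (∀ v ∉ S, HeightOneSpectrum.adicAbv K v t ≤ 1) ∧
      ∃ n, (ratApply P Q)^[n] x = t}.Finite := by
  refine ((((finite_sIntegral_fourth hc hd hsq S).image (ratApply P Q)^[4]).union
    ((Set.finite_Iio 4).image fun n => (ratApply P Q)^[n] x)).preimage
      OnePoint.coe_injective.injOn).subset ?_
  rintro t ⟨ht, n, hn⟩
  by_cases h : n < 4
  · exact Or.inr ⟨n, h, hn⟩
  · refine Or.inl ⟨(ratApply P Q)^[n - 4] x, ⟨t, ht, ?_⟩, ?_⟩ <;>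
      rw [← Function.iterate_add_apply, show 4 + (n - 4) = n by omega, hn]

/-- An infinite orbit has no repetition, so it is `S`-integral finitely often. -/
theorem finite_sIntegral_times {P Q : K[X]} (hc : IsCoprime P Q) (hd : 2 ≤ degree P Q)
    (hsq : 0 < (squareDenom P Q).natDegree) (S : Finset (HeightOneSpectrum (𝓞 K)))
    {x : OnePoint K} (hx : (Set.range fun n => (ratApply P Q)^[n] x).Infinite) :
    {n : ℕ | ∃ t : K, (∀ v ∉ S, HeightOneSpectrum.adicAbv K v t ≤ 1) ∧
      (ratApply P Q)^[n] x = t}.Finite := by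
  have hinj : Function.Injective fun n => (ratApply P Q)^[n] x := by
    intro m n h
    wlog hmn : m < n generalizing m n
    · rcases eq_or_lt_of_le (not_lt.1 hmn) with e | e
      · exact e.symm
      · exact (this h.symm e).symm
    refine absurd (((Set.finite_Iio n).image fun k => (ratApply P Q)^[k] x).subset ?_) hx
    rintro _ ⟨k, rfl⟩
    induction k using Nat.strong_induction_on with
    | _ k ih =>
      by_cases hk : k < n
      · exact ⟨k, hk, rfl⟩
      · obtain ⟨l, hl, e⟩ := ih (k - n + m) (by omega)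
        refine ⟨l, hl, e.trans ?_⟩
        simp only at h ⊢
        rw [Function.iterate_add_apply, h, ← Function.iterate_add_apply,
          show k - n + n = k by omega]
  exact (((finite_sIntegral_orbit hc hd hsq S x).image fun t : K => (t : OnePoint K)).preimage
    hinj.injOn).subset fun n ⟨t, ht, e⟩ => ⟨t, ⟨ht, n, e⟩, e.symm⟩

end FA.ArithmeticDynamics

end
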